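import Mathlib

/-!
# ES-D-BR3 (helper1): a degree criterion for generators of function fields

If `K₀ ≤ K₁ ≤ k(t)`, `t` is a root of a monic polynomial of degree `≤ n` over `K₀` and
`[K₁ : K₀] ≥ n`, then `K₁ = k(t)` and `[K₀(t) : K₀] = n`.
-/

set_option autoImplicit false

namespace Fermat.Agent.H1.ESD

open IntermediateField Polynomial

theorem adjoin_eq_of_relrank_le {k L : Type*} [Field k] [Field L] [Algebra k L]
    (K₀ K₁ : IntermediateField k L) (t : L) (n : ℕ) (h01 : K₀ ≤ K₁)
    (h1t : K₁ ≤ adjoin k {t}) (f : Polynomial K₀) (hf : f.Monic) (hdeg : f.natDegree ≤ n)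
    (hroot : Polynomial.aeval t f = 0) (hn : (n : Cardinal) ≤ relrank K₀ K₁) :
    K₁ = adjoin k {t} ∧ Module.finrank K₀ (adjoin K₀ {t}) = n ∧
      FiniteDimensional K₀ (adjoin K₀ {t}) := by
  have h0t : K₀ ≤ adjoin k {t} := h01.trans h1t
  have hint : IsIntegral K₀ t := ⟨f, hf, hroot⟩
  haveI : FiniteDimensional K₀ (adjoin K₀ {t}) := adjoin.finiteDimensional hint
  have hfin : Module.finrank K₀ (adjoin K₀ {t}) ≤ n := by
    rw [adjoin.finrank hint]
    exact (natDegree_le_natDegree (minpoly.min K₀ t hf hroot)).trans hdeg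
  have hE : extendScalars h0t = adjoin K₀ {t} := extendScalars_adjoin h0t
  have hle : extendScalars h01 ≤ adjoin K₀ {t} := by
    rw [← hE]
    exact (extendScalars_le_extendScalars_iff h01 h0t).2 h1t
  haveI : FiniteDimensional K₀ (extendScalars h01) :=
    Module.Finite.of_injective (IntermediateField.inclusion hle).toLinearMap
      (IntermediateField.inclusion_injective hle)
  have hrank : (n : Cardinal) ≤ Module.rank K₀ (extendScalars h01) := by
    rwa [← relrank_eq_rank_of_le h01]
  have hn' : n ≤ Module.finrank K₀ (extendScalars h01) := by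
    rw [← Module.finrank_eq_rank] at hrank
    exact_mod_cast hrank
  have heq : extendScalars h01 = adjoin K₀ {t} := eq_of_le_of_finrank_le hle (hfin.trans hn')
  refine ⟨?_, le_antisymm hfin (by rw [← heq]; exact hn'), inferInstance⟩
  have h := congrArg (restrictScalars k) (heq.trans hE.symm)
  rwa [extendScalars_restrictScalars, extendScalars_restrictScalars] at h

end Fermat.Agent.H1.ESD
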