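import Fermat.Agent.H1.ESD.ListConv
import Fermat.Agent.H69.S16LevelThree
import Fermat.Agent.H41.EisThree
import Fermat.Agent.H17.JBridge

/-!
# ES-D-BR3 (helper1): three identities between modular forms on `Γ₀(3)`

With `F = F₂ = (3 E₂(3z) - E₂(z)) / 2 = 1 + 12 G'`, `P = 9 F² - E₄`, `Q = E₄ - F²`:

* (A)  `P³ Q = 64 (E₄³ - E₆²) F²`            (`= 110592 Δ F²`)
* (A') `P Q³ = 46656 (E₄(3z)³ - E₆(3z)²) F²`   (`= 27³ · 4096 Δ(3z) F²`)
* (C)  `E₄ + 9 E₄(3z) = 10 F²`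

as identities of integral power series, proved by the Sturm bound at level 3
(`Fermat.Agent.H69.L3`) and a certified computation of the first six coefficients.
-/

set_option autoImplicit false

namespace Fermat.Agent.H1.ESD

open PowerSeries UpperHalfPlane ModularForm CongruenceSubgroup
open scoped MatrixGroups ModularForm
open Fermat.Agent.H69.L3

/-- expansion `X ↦ X³` -/
noncomputable def ex3 (f : PowerSeries ℤ) : PowerSeries ℤ := expand 3 (by norm_num) f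

theorem cl_ex3 (n : ℕ) (f : PowerSeries ℤ) : cl n (ex3 f) = lexp n 3 (cl n f) :=
  cl_expand n 3 (by norm_num) f

/-- the `q`-expansion of `z ↦ g (3 z)` -/
theorem isQExp_ex3 {k : ℕ} {p : PowerSeries ℤ} (g : ModularForm 𝒮ℒ (k : ℤ))
    (hg : qExpansion 1 (⇑g) = p.map (Int.castRingHom ℂ)) : IsQExp k (ex3 p) := by
  refine ⟨Fermat.Agent.H62.dilate 3 g, ?_⟩
  ext n
  rw [Fermat.Agent.H62.qExpansion_dilate_coeff, hg, ex3]
  simp only [coeff_map, coeff_expand]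
  split_ifs with h
  · rfl
  · simp

theorem isQExp_E4_3 : IsQExp 4 (ex3 pE4) :=
  isQExp_ex3 (k := 4) (E₄.mcast (by norm_num)) (by
    rw [ModularForm.qExpansion_mcast, qExpansion_E4])

theorem isQExp_E6_3 : IsQExp 6 (ex3 pE6) :=
  isQExp_ex3 (k := 6) (E₆.mcast (by norm_num)) (by
    rw [ModularForm.qExpansion_mcast, qExpansion_E6])

/-! ### coefficient lists -/

theorem cl_pE4 : cl 6 pE4 = [1, 240, 2160, 6720, 17520, 30240] := by
  refine cl_eq_of_forall rfl fun i hi => ?_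
  rw [pE4, coeff_mk]
  interval_cases i <;> decide

theorem cl_pE6 : cl 6 pE6 = [1, -504, -16632, -122976, -532728, -1575504] := by
  refine cl_eq_of_forall rfl fun i hi => ?_
  rw [pE6, coeff_mk]
  interval_cases i <;> decide

theorem cl_pF2 : cl 6 pF2 = [1, 12, 36, 12, 84, 72] := by
  refine cl_eq_of_forall rfl fun i hi => ?_
  rw [coeff_pF2]
  interval_cases i <;> decide

/-! ### the forms `P`, `Q` -/

/-- `P = 9 F² - E₄` -/
noncomputable def pP : PowerSeries ℤ := C 9 * pF2 ^ 2 - pE4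

/-- `Q = E₄ - F²` -/
noncomputable def pQ : PowerSeries ℤ := pE4 - pF2 ^ 2

open Fermat.Agent.H1.S16L2 (EisThreeStatement)

theorem isQExp_F2sq (hE : EisThreeStatement) : IsQExp 4 (pF2 ^ 2) := (isQExp_F2 hE).pow 2

theorem isQExp_pP (hE : EisThreeStatement) : IsQExp 4 pP :=
  (isQExpC_intC_mul (isQExp_F2sq hE) 9).sub isQExp_E4

theorem isQExp_pQ (hE : EisThreeStatement) : IsQExp 4 pQ :=
  isQExp_E4.sub (isQExp_F2sq hE)

theorem eq_of_isQExp_sub {k : ℕ} {f g : PowerSeries ℤ} (h : IsQExp k (f - g))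
    (hc : cl (k / 3 + 1) (f - g) = List.replicate (k / 3 + 1) 0) : f = g := by
  have h0 := IsQExpC.eq_zero h (fun n hn => by
    rw [coeff_map, coeff_eq_zero_of_cl hc (by omega), map_zero])
  have hinj := PowerSeries.map_injective (Int.castRingHom ℂ) Int.cast_injective
  exact sub_eq_zero.mp (hinj (h0.trans (map_zero _).symm))

/-- (A) `P³ Q = 64 (E₄³ - E₆²) F²` -/
theorem idA (hE : EisThreeStatement) :
    pP ^ 3 * pQ = C 64 * ((pE4 ^ 3 - pE6 ^ 2) * pF2 ^ 2) := by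
  have hL : IsQExp 16 (pP ^ 3 * pQ) := ((isQExp_pP hE).pow 3).mul (isQExp_pQ hE)
  have hD : IsQExp 12 (pE4 ^ 3 - pE6 ^ 2) := (isQExp_E4.pow 3).sub (isQExp_E6.pow 2)
  have hR : IsQExp 16 (C 64 * ((pE4 ^ 3 - pE6 ^ 2) * pF2 ^ 2)) :=
    isQExpC_intC_mul (hD.mul (isQExp_F2sq hE)) 64
  refine eq_of_isQExp_sub (hL.sub hR) (?_ : cl 6 _ = List.replicate 6 0)
  simp only [pP, pQ, cl_sub, cl_mul, cl_pow, cl_C, cl_pE4, cl_pE6, cl_pF2]
  decide

/-- (A') `P Q³ = 46656 (E₄(3z)³ - E₆(3z)²) F²` -/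
theorem idA' (hE : EisThreeStatement) :
    pP * pQ ^ 3 = C 46656 * ((ex3 pE4 ^ 3 - ex3 pE6 ^ 2) * pF2 ^ 2) := by
  have hL : IsQExp 16 (pP * pQ ^ 3) := (isQExp_pP hE).mul ((isQExp_pQ hE).pow 3)
  have hD : IsQExp 12 (ex3 pE4 ^ 3 - ex3 pE6 ^ 2) := (isQExp_E4_3.pow 3).sub (isQExp_E6_3.pow 2)
  have hR : IsQExp 16 (C 46656 * ((ex3 pE4 ^ 3 - ex3 pE6 ^ 2) * pF2 ^ 2)) :=
    isQExpC_intC_mul (hD.mul (isQExp_F2sq hE)) 46656
  refine eq_of_isQExp_sub (hL.sub hR) (?_ : cl 6 _ = List.replicate 6 0)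
  simp only [pP, pQ, cl_sub, cl_mul, cl_pow, cl_C, cl_ex3, cl_pE4, cl_pE6, cl_pF2]
  decide

/-- (C) `E₄ + 9 E₄(3z) = 10 F²` -/
theorem idC (hE : EisThreeStatement) :
    C 9 * ex3 pE4 = C 10 * pF2 ^ 2 - pE4 := by
  have hL : IsQExp 4 (C 9 * ex3 pE4) := isQExpC_intC_mul isQExp_E4_3 9
  have hR : IsQExp 4 (C 10 * pF2 ^ 2 - pE4) :=
    (isQExpC_intC_mul (isQExp_F2sq hE) 10).sub isQExp_E4
  refine eq_of_isQExp_sub (hL.sub hR) (?_ : cl 2 _ = List.replicate 2 0)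
  have h2 : ∀ f : PowerSeries ℤ, cl 2 f = (cl 6 f).take 2 := by
    intro f
    simp [cl, List.range_succ]
  simp only [h2, cl_sub, cl_mul, cl_pow, cl_C, cl_ex3, cl_pE4, cl_pF2]
  decide

end Fermat.Agent.H1.ESD
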