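import Mathlib

/-!
# ES-D-BR3 (helper1): certified computation of low-order coefficients of integral power series

`cl n f` is the list of the first `n` coefficients of `f : PowerSeries ℤ`.  The operations
`+, -, *, C c * ·, expand` on power series correspond to explicit, kernel-computable operations
on lists, so identities between low coefficients are reduced to `decide`.
-/

set_option autoImplicit false

namespace Fermat.Agent.H1.ESD

open PowerSeries

/-- the list of the first `n` coefficients of an integral power series -/
noncomputable def cl (n : ℕ) (f : PowerSeries ℤ) : List ℤ :=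
  (List.range n).map fun i => coeff i f

/-- `k`-th coefficient of the Cauchy product of two coefficient lists -/
def convAt (a b : List ℤ) (k : ℕ) : ℤ :=
  ((List.range (k + 1)).map fun i => a.getD i 0 * b.getD (k - i) 0).sum

/-- truncated Cauchy product -/
def conv (n : ℕ) (a b : List ℤ) : List ℤ := (List.range n).map (convAt a b)

/-- truncated sum -/
def ladd (n : ℕ) (a b : List ℤ) : List ℤ := (List.range n).map fun i => a.getD i 0 + b.getD i 0

/-- truncated difference -/
def lsub (n : ℕ) (a b : List ℤ) : List ℤ := (List.range n).map fun i => a.getD i 0 - b.getD i 0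

/-- truncated scalar multiple -/
def lsmul (n : ℕ) (c : ℤ) (a : List ℤ) : List ℤ := (List.range n).map fun i => c * a.getD i 0

/-- truncated expansion `X ↦ X ^ p` -/
def lexp (n p : ℕ) (a : List ℤ) : List ℤ :=
  (List.range n).map fun i => if p ∣ i then a.getD (i / p) 0 else 0

theorem length_cl (n : ℕ) (f : PowerSeries ℤ) : (cl n f).length = n := by
  simp [cl]

theorem getD_cl {n i : ℕ} (hi : i < n) (f : PowerSeries ℤ) : (cl n f).getD i 0 = coeff i f := by
  simp [cl, List.getD_eq_getElem?_getD, hi]

theorem coeff_eq_of_cl {n : ℕ} {f : PowerSeries ℤ} {l : List ℤ} (h : cl n f = l) {i : ℕ}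
    (hi : i < n) : coeff i f = l.getD i 0 := by
  rw [← h, getD_cl hi]

theorem cl_add (n : ℕ) (f g : PowerSeries ℤ) : cl n (f + g) = ladd n (cl n f) (cl n g) := by
  unfold cl ladd
  refine List.map_congr_left fun i hi => ?_
  rw [List.mem_range] at hi
  have h1 := getD_cl hi f
  have h2 := getD_cl hi g
  unfold cl at h1 h2
  rw [h1, h2, map_add]

theorem cl_sub (n : ℕ) (f g : PowerSeries ℤ) : cl n (f - g) = lsub n (cl n f) (cl n g) := by
  unfold cl lsub
  refine List.map_congr_left fun i hi => ?_
  rw [List.mem_range] at hi
  have h1 := getD_cl hi f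
  have h2 := getD_cl hi g
  unfold cl at h1 h2
  rw [h1, h2, map_sub]

theorem cl_C_mul (n : ℕ) (c : ℤ) (f : PowerSeries ℤ) :
    cl n (C c * f) = lsmul n c (cl n f) := by
  unfold cl lsmul
  refine List.map_congr_left fun i hi => ?_
  rw [List.mem_range] at hi
  have h1 := getD_cl hi f
  unfold cl at h1
  rw [h1, coeff_C_mul]

theorem cl_mul (n : ℕ) (f g : PowerSeries ℤ) : cl n (f * g) = conv n (cl n f) (cl n g) := by
  unfold cl conv
  refine List.map_congr_left fun k hk => ?_
  rw [List.mem_range] at hk
  rw [coeff_mul, Finset.Nat.sum_antidiagonal_eq_sum_range_succ_mk, convAt,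
    ← List.sum_toFinset _ (List.nodup_range), List.toFinset_range]
  · refine Finset.sum_congr rfl fun i hi => ?_
    rw [Finset.mem_range] at hi
    have h1 := getD_cl (show i < n by omega) f
    have h2 := getD_cl (show k - i < n by omega) g
    unfold cl at h1 h2
    rw [h1, h2]

theorem cl_expand (n p : ℕ) (hp : p ≠ 0) (f : PowerSeries ℤ) :
    cl n (expand p hp f) = lexp n p (cl n f) := by
  unfold cl lexp
  refine List.map_congr_left fun i hi => ?_
  rw [List.mem_range] at hi
  rw [coeff_expand]
  split_ifs with h
  · have hlt : i / p < n := lt_of_le_of_lt (Nat.div_le_self i p) hi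
    have h1 := getD_cl hlt f
    unfold cl at h1
    rw [h1]
  · rfl

theorem cl_zero (n : ℕ) : cl n (0 : PowerSeries ℤ) = List.replicate n 0 := by
  unfold cl
  rw [List.eq_replicate_iff]
  refine ⟨by simp, fun b hb => ?_⟩
  rw [List.mem_map] at hb
  obtain ⟨i, -, rfl⟩ := hb
  simp

/-- if the first `n` coefficients are given by a list of zeros, they vanish -/
theorem coeff_eq_zero_of_cl {n : ℕ} {f : PowerSeries ℤ} (h : cl n f = List.replicate n 0)
    {i : ℕ} (hi : i < n) : coeff i f = 0 := by
  rw [coeff_eq_of_cl h hi]
  simp [List.getD_eq_getElem?_getD, hi]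


/-- truncated `1` -/
def lone (n : ℕ) : List ℤ := (List.range n).map fun i => if i = 0 then 1 else 0

/-- truncated power -/
def lpow (n : ℕ) (a : List ℤ) : ℕ → List ℤ
  | 0 => lone n
  | k + 1 => conv n (lpow n a k) a

theorem cl_one (n : ℕ) : cl n (1 : PowerSeries ℤ) = lone n := by
  unfold cl lone
  refine List.map_congr_left fun i _ => ?_
  rw [coeff_one]

theorem cl_pow (n : ℕ) (f : PowerSeries ℤ) (k : ℕ) : cl n (f ^ k) = lpow n (cl n f) k := by
  induction k with
  | zero => rw [pow_zero, cl_one, lpow]
  | succ k ih => rw [pow_succ, cl_mul, ih, lpow]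

/-- a list of the right length with the right entries is the coefficient list -/
theorem cl_eq_of_forall {n : ℕ} {f : PowerSeries ℤ} {l : List ℤ} (hl : l.length = n)
    (h : ∀ i, i < n → coeff i f = l.getD i 0) : cl n f = l := by
  apply List.ext_getElem
  · rw [length_cl, hl]
  · intro i h1 h2
    rw [length_cl] at h1
    have := h i h1
    rw [List.getD_eq_getElem?_getD, List.getElem?_eq_getElem h2, Option.getD_some] at this
    rw [← this]
    simp [cl]

example : lpow 3 [1, 2, 3] 2 = [1, 4, 10] := by decide


/-- truncated constant -/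
def lconst (n : ℕ) (c : ℤ) : List ℤ := (List.range n).map fun i => if i = 0 then c else 0

theorem cl_C (n : ℕ) (c : ℤ) : cl n (C c : PowerSeries ℤ) = lconst n c := by
  unfold cl lconst
  refine List.map_congr_left fun i _ => ?_
  rw [coeff_C]

theorem cl_X (n : ℕ) : cl n (X : PowerSeries ℤ) = (List.range n).map fun i => if i = 1 then 1 else 0 := by
  unfold cl
  refine List.map_congr_left fun i _ => ?_
  rw [coeff_X]

-- sanity checks of kernel computability
example : conv 3 [1, 2, 3] [1, 1, 1] = [1, 3, 6] := by decide
example : lexp 6 3 [1, 240, 5, 6, 7, 8] = [1, 0, 0, 240, 0, 0] := by decide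

end Fermat.Agent.H1.ESD
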