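import Fermat.Agent.H23.PlaceBasic

/-!
# ES-D-BR3 (helper1): elementary place calculus

`ord` of polynomial expressions at a place, used to transport branch data along a rational
function `j = R(t)`.
-/

set_option autoImplicit false

noncomputable section

namespace Fermat.Agent.H1.ESD

open AlgebraicCurve Polynomial

variable {K F : Type*} [Field K] [Field F] [Algebra K F] (v : Place K F)

theorem pc_ord_pow (f : F) (n : ℕ) : v.ord (f ^ n) = n * v.ord f := by
  have h := v.ord_zpow f (n : ℤ)
  rwa [zpow_natCast] at h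

theorem pc_sub_const_ne_zero {t : F} (ht : Transcendental K t) (c : K) :
    t - algebraMap K F c ≠ 0 := by
  intro h
  apply ht
  rw [sub_eq_zero.mp h]
  exact isAlgebraic_algebraMap c

theorem pc_ne_zero {t : F} (ht : Transcendental K t) : t ≠ 0 := by
  have h := pc_sub_const_ne_zero ht 0
  rwa [map_zero, sub_zero] at h

theorem pc_aeval_ne_zero {t : F} (ht : Transcendental K t) {p : K[X]} (hp : p ≠ 0) :
    aeval t p ≠ 0 := fun h => ht ⟨p, hp, h⟩

/-- a polynomial in an integral element is integral -/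
theorem pc_aeval_mem {t : F} (ht : t ∈ v.toValuationSubring) (p : K[X]) :
    aeval t p ∈ v.toValuationSubring := by
  induction p using Polynomial.induction_on with
  | C a =>
    rw [aeval_C]
    exact v.algebraMap_mem' a
  | add p q hp hq =>
    rw [map_add]
    exact v.toValuationSubring.add_mem _ _ hp hq
  | monomial n a h =>
    rw [pow_succ, ← mul_assoc, map_mul, aeval_X]
    exact v.toValuationSubring.mul_mem _ _ h ht

theorem pc_ord_aeval_nonneg {t : F} (ht : 0 ≤ v.ord t) (p : K[X]) : 0 ≤ v.ord (aeval t p) :=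
  Fermat.Agent.H23.ord_nonneg_of_mem v
    (pc_aeval_mem v (Fermat.Agent.H23.mem_of_ord_nonneg v ht) p)

/-- if `c` is a root of `p` then `ord (t - c) ≤ ord p(t)` at every place where `t` is
integral -/
theorem pc_ord_sub_le_aeval {t : F} (htr : Transcendental K t) (ht : 0 ≤ v.ord t) {p : K[X]}
    (hp : p ≠ 0) {c : K} (hc : p.eval c = 0) :
    v.ord (t - algebraMap K F c) ≤ v.ord (aeval t p) := by
  obtain ⟨q, hq⟩ := dvd_iff_isRoot.mpr (show p.IsRoot c from hc)
  have hq0 : q ≠ 0 := by
    rintro rfl
    rw [mul_zero] at hq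
    exact hp hq
  have h1 : aeval t p = (t - algebraMap K F c) * aeval t q := by
    rw [hq, map_mul, map_sub, aeval_X, aeval_C]
  rw [h1, v.ord_mul (pc_sub_const_ne_zero htr c) (pc_aeval_ne_zero htr hq0)]
  have := pc_ord_aeval_nonneg v ht q
  omega

/-- `ord (x + c) = 0` for a nonzero constant `c` when `ord x > 0` -/
theorem pc_ord_add_const_of_pos {x : F} (hx : 0 < v.ord x) {c : K} (hc : c ≠ 0) :
    v.ord (x + algebraMap K F c) = 0 := by
  have hx0 : x ≠ 0 := by
    rintro rfl
    simp at hx
  have hc0 : algebraMap K F c ≠ 0 := by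
    rwa [Ne, map_eq_zero]
  have h := Fermat.Agent.H23.ord_add_eq_of_lt v hc0 hx0
    (by rw [Fermat.Agent.H23.ord_algebraMap]; exact hx)
  rw [add_comm, h, Fermat.Agent.H23.ord_algebraMap]

/-- `ord (x + c) = ord x` for a constant `c` when `ord x < 0` -/
theorem pc_ord_add_const_of_neg {x : F} (hx : v.ord x < 0) (c : K) :
    v.ord (x + algebraMap K F c) = v.ord x := by
  have hx0 : x ≠ 0 := by
    rintro rfl
    simp at hx
  by_cases hc : c = 0
  · rw [hc, map_zero, add_zero]
  · have hc0 : algebraMap K F c ≠ 0 := by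
      rwa [Ne, map_eq_zero]
    exact Fermat.Agent.H23.ord_add_eq_of_lt v hx0 hc0
      (by rw [Fermat.Agent.H23.ord_algebraMap]; exact hx)

/-- `ord (x + c) ≥ 0` when `ord x ≥ 0` -/
theorem pc_ord_add_const_nonneg {x : F} (hx : 0 ≤ v.ord x) (c : K) :
    0 ≤ v.ord (x + algebraMap K F c) :=
  Fermat.Agent.H23.ord_nonneg_of_mem v (v.toValuationSubring.add_mem _ _
    (Fermat.Agent.H23.mem_of_ord_nonneg v hx) (v.algebraMap_mem' c))

end Fermat.Agent.H1.ESD

end
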