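import Fermat.Agent.H1.ESD.PlaceCalc

/-!
# ES-D-BR3 (helper1): local branch data of `t` from those of `j = (t+27)(t+243)³/t³`

Pure place calculus: `K` a field of characteristic 0, `F/K` a field, `j, t ∈ F` transcendental
with `j t³ = (t + 27)(t + 243)³`, `v` a place of `F`.  If `j` is unramified at `v` outside
`j ∈ {0, 1728, ∞}` with `e ∣ 3` over `0`, `e ∣ 2` over `1728`, `e ∣ N` over `∞`, then `t` is
unramified at `v` outside `t ∈ {0, -27, ∞}` with `e ∣ 3` over `-27`, `3 e ∣ N` over `0` and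
`e ∣ N` over `∞`.
-/

set_option autoImplicit false

noncomputable section

namespace Fermat.Agent.H1.ESD

open AlgebraicCurve Polynomial

variable {K F : Type*} [Field K] [Field F] [Algebra K F] [CharZero K] (v : Place K F)
variable {j t : F}

omit [CharZero K] in
theorem pc_ofNat (n : ℕ) [n.AtLeastTwo] :
    (OfNat.ofNat n : F) = algebraMap K F (OfNat.ofNat n) := (map_ofNat _ n).symm

omit [CharZero K] in
theorem pc_add_ofNat_ne_zero (htr : Transcendental K t) (n : ℕ) [n.AtLeastTwo] :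
    t + (OfNat.ofNat n : F) ≠ 0 := by
  have h := pc_sub_const_ne_zero htr (-(OfNat.ofNat n : K))
  rwa [map_neg, sub_neg_eq_add, ← pc_ofNat] at h

omit [CharZero K] in
theorem t3_ord_rel (hrel : j * t ^ 3 = (t + 27) * (t + 243) ^ 3) (htr : Transcendental K t) :
    j ≠ 0 ∧ v.ord j + 3 * v.ord t = v.ord (t + 27) + 3 * v.ord (t + 243) := by
  have h0 := pc_ne_zero htr
  have h27 := pc_add_ofNat_ne_zero (K := K) htr 27
  have h243 := pc_add_ofNat_ne_zero (K := K) htr 243
  have hj : j ≠ 0 := by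
    rintro rfl
    rw [zero_mul] at hrel
    exact mul_ne_zero h27 (pow_ne_zero 3 h243) hrel.symm
  refine ⟨hj, ?_⟩
  have h := congrArg v.ord hrel
  rw [v.ord_mul hj (pow_ne_zero 3 h0), v.ord_mul h27 (pow_ne_zero 3 h243), pc_ord_pow,
    pc_ord_pow] at h
  simpa using h

/-- `(j - 1728) t³ = (t² - 486 t - 19683)²` -/
theorem t3_rel_1728 (hrel : j * t ^ 3 = (t + 27) * (t + 243) ^ 3) :
    (j - 1728) * t ^ 3 = (t ^ 2 - 486 * t - 19683) ^ 2 := by
  linear_combination hrel

theorem t3_branch_pole (hrel : j * t ^ 3 = (t + 27) * (t + 243) ^ 3)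
    (htr : Transcendental K t) (h : v.ord t < 0) : v.ord j = v.ord t := by
  obtain ⟨-, h1⟩ := t3_ord_rel v hrel htr
  rw [pc_ofNat (K := K) 27, pc_ofNat (K := K) 243, pc_ord_add_const_of_neg v h,
    pc_ord_add_const_of_neg v h] at h1
  omega

theorem t3_branch_zero (hrel : j * t ^ 3 = (t + 27) * (t + 243) ^ 3)
    (htr : Transcendental K t) (h : 0 < v.ord t) : v.ord j = -(3 * v.ord t) := by
  obtain ⟨-, h1⟩ := t3_ord_rel v hrel htr
  rw [pc_ofNat (K := K) 27, pc_ofNat (K := K) 243,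
    pc_ord_add_const_of_pos v h (by norm_num : (27 : K) ≠ 0),
    pc_ord_add_const_of_pos v h (by norm_num : (243 : K) ≠ 0)] at h1
  omega

theorem t3_ord_of_27 (h : 0 < v.ord (t + 27)) : v.ord t = 0 ∧ v.ord (t + 243) = 0 := by
  constructor
  · have h1 := pc_ord_add_const_of_pos v h (by norm_num : (-27 : K) ≠ 0)
    rwa [map_neg, ← pc_ofNat, add_neg_cancel_right] at h1
  · have h1 := pc_ord_add_const_of_pos v h (by norm_num : (216 : K) ≠ 0)
    rwa [← pc_ofNat, add_assoc, show (27 : F) + 216 = 243 by norm_num] at h1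

theorem t3_branch_27 (hrel : j * t ^ 3 = (t + 27) * (t + 243) ^ 3)
    (htr : Transcendental K t) (h : 0 < v.ord (t + 27)) : v.ord j = v.ord (t + 27) := by
  obtain ⟨-, h1⟩ := t3_ord_rel v hrel htr
  obtain ⟨h2, h3⟩ := t3_ord_of_27 (K := K) v h
  rw [h2, h3] at h1
  omega

theorem t3_ord_of_243 (h : 0 < v.ord (t + 243)) : v.ord t = 0 ∧ v.ord (t + 27) = 0 := by
  constructor
  · have h1 := pc_ord_add_const_of_pos v h (by norm_num : (-243 : K) ≠ 0)
    rwa [map_neg, ← pc_ofNat, add_neg_cancel_right] at h1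
  · have h1 := pc_ord_add_const_of_pos v h (by norm_num : (-216 : K) ≠ 0)
    rwa [map_neg, ← pc_ofNat, add_assoc, show (243 : F) + -216 = 27 by norm_num] at h1

theorem t3_branch_243 (hrel : j * t ^ 3 = (t + 27) * (t + 243) ^ 3)
    (htr : Transcendental K t) (h : 0 < v.ord (t + 243)) : v.ord j = 3 * v.ord (t + 243) := by
  obtain ⟨-, h1⟩ := t3_ord_rel v hrel htr
  obtain ⟨h2, h3⟩ := t3_ord_of_243 (K := K) v h
  rw [h2, h3] at h1
  omega

omit [CharZero K] in
theorem pc_ord_of_sub_pos {c : K} (hc : c ≠ 0) (h : 0 < v.ord (t - algebraMap K F c)) :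
    v.ord t = 0 := by
  have h1 := pc_ord_add_const_of_pos v h hc
  rwa [sub_add_cancel] at h1

/-- the polynomial `c³ (X+27)(X+243)³ - (c+27)(c+243)³ X³`, which vanishes at `c` -/
def t3G (c : K) : K[X] :=
  C (c ^ 3) * ((X + C 27) * (X + C 243) ^ 3) - C ((c + 27) * (c + 243) ^ 3) * X ^ 3

omit [CharZero K] in
theorem t3G_eval (c : K) : (t3G c).eval c = 0 := by
  simp only [t3G, eval_sub, eval_mul, eval_C, eval_add, eval_X, eval_pow]
  ring

omit [CharZero K] in
theorem t3G_aeval (hrel : j * t ^ 3 = (t + 27) * (t + 243) ^ 3) (c a : K)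
    (ha : a * c ^ 3 = (c + 27) * (c + 243) ^ 3) :
    aeval t (t3G c) = (j - algebraMap K F a) * (algebraMap K F c ^ 3 * t ^ 3) := by
  have h1 : aeval t (t3G c) = algebraMap K F c ^ 3 * ((t + 27) * (t + 243) ^ 3) -
      algebraMap K F ((c + 27) * (c + 243) ^ 3) * t ^ 3 := by
    simp only [t3G, map_sub, map_mul, map_add, map_pow, aeval_X, aeval_C, map_ofNat]
  rw [h1, ← ha, ← hrel, map_mul, map_pow]
  ring

/-- the polynomial `X² - 486 X - 19683` -/
def t3Q : K[X] := X ^ 2 - C 486 * X - C 19683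

omit [CharZero K] in
theorem t3Q_aeval : aeval t (t3Q (K := K)) = t ^ 2 - 486 * t - 19683 := by
  simp only [t3Q, map_sub, map_mul, map_pow, aeval_X, aeval_C, map_ofNat]

/-- **local branch data of `t₃`** -/
theorem t3_branch_local (hrel : j * t ^ 3 = (t + 27) * (t + 243) ^ 3)
    (htr : Transcendental K t) (hjtr : Transcendental K j)
    (hJ1 : ∀ a : K, a ≠ 0 → a ≠ 1728 → 0 < v.ord (j - algebraMap K F a) →
      v.ord (j - algebraMap K F a) = 1)
    (hJ0 : 0 < v.ord j → v.ord j ∣ 3)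
    (hJ2 : 0 < v.ord (j - algebraMap K F 1728) → v.ord (j - algebraMap K F 1728) ∣ 2)
    {c : K} (hc0 : c ≠ 0) (hc27 : c ≠ -27) (h : 0 < v.ord (t - algebraMap K F c)) :
    v.ord (t - algebraMap K F c) = 1 := by
  have ht0 : v.ord t = 0 := pc_ord_of_sub_pos v hc0 h
  have htne := pc_ne_zero htr
  by_cases h243 : c = -243
  · -- over `j = 0`, triple root
    subst h243
    rw [map_neg, sub_neg_eq_add, ← pc_ofNat] at h ⊢
    have h1 := t3_branch_243 v hrel htr h
    have h2 := hJ0 (by omega)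
    rw [h1] at h2
    have h3 := Int.le_of_dvd (by norm_num) h2
    omega
  by_cases hQ : c ^ 2 - 486 * c - 19683 = 0
  · -- over `j = 1728`, double roots
    have hjne : j - 1728 ≠ 0 := by
      have := pc_sub_const_ne_zero hjtr 1728
      rwa [← pc_ofNat] at this
    have h1 := t3_rel_1728 hrel
    have hq0 : (t ^ 2 - 486 * t - 19683) ^ 2 ≠ 0 := by
      rw [← h1]
      exact mul_ne_zero hjne (pow_ne_zero 3 htne)
    have hq1 : t ^ 2 - 486 * t - 19683 ≠ 0 := fun h0 => hq0 (by rw [h0]; ring)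
    have hQne : (t3Q (K := K)) ≠ 0 := by
      intro h0
      apply hq1
      rw [← t3Q_aeval (K := K), h0, map_zero]
    have hroot : (t3Q (K := K)).eval c = 0 := by
      simp only [t3Q, eval_sub, eval_mul, eval_C, eval_X, eval_pow]
      exact hQ
    have h2 := pc_ord_sub_le_aeval v htr ht0.ge hQne hroot
    rw [t3Q_aeval] at h2
    have h3 := congrArg v.ord h1
    rw [v.ord_mul hjne (pow_ne_zero 3 htne), pc_ord_pow, pc_ord_pow, ht0] at h3
    have h4 : 0 < v.ord (j - algebraMap K F 1728) := by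
      rw [← pc_ofNat]
      push_cast at h3
      omega
    have h5 := Int.le_of_dvd (by norm_num) (hJ2 h4)
    rw [← pc_ofNat] at h5
    push_cast at h3
    omega
  · -- generic point
    set a : K := (c + 27) * (c + 243) ^ 3 / c ^ 3 with ha
    have hc3 : c ^ 3 ≠ 0 := pow_ne_zero 3 hc0
    have hac : a * c ^ 3 = (c + 27) * (c + 243) ^ 3 := by
      rw [ha, div_mul_cancel₀ _ hc3]
    have ha0 : a ≠ 0 := by
      intro h0
      rw [h0, zero_mul] at hac
      rcases mul_eq_zero.mp hac.symm with h1 | h1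
      · exact hc27 (by linear_combination h1)
      · exact h243 (by linear_combination pow_eq_zero_iff (by norm_num) |>.mp h1)
    have ha1728 : a ≠ 1728 := by
      intro h0
      rw [h0] at hac
      apply hQ
      have : (c ^ 2 - 486 * c - 19683) ^ 2 = 0 := by linear_combination -hac
      exact pow_eq_zero_iff (by norm_num) |>.mp this
    have hjne : j - algebraMap K F a ≠ 0 := pc_sub_const_ne_zero hjtr a
    have hcF : algebraMap K F c ≠ 0 := by rwa [Ne, map_eq_zero]
    have h1 := t3G_aeval hrel c a hac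
    have hne : aeval t (t3G c) ≠ 0 := by
      rw [h1]
      exact mul_ne_zero hjne (mul_ne_zero (pow_ne_zero 3 hcF) (pow_ne_zero 3 htne))
    have hGne : t3G c ≠ 0 := by
      intro h0
      apply hne
      rw [h0, map_zero]
    have h2 := pc_ord_sub_le_aeval v htr ht0.ge hGne (t3G_eval c)
    rw [h1, v.ord_mul hjne (mul_ne_zero (pow_ne_zero 3 hcF) (pow_ne_zero 3 htne)),
      v.ord_mul (pow_ne_zero 3 hcF) (pow_ne_zero 3 htne), pc_ord_pow, pc_ord_pow, ht0,
      Fermat.Agent.H23.ord_algebraMap] at h2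
    have h3 : 0 < v.ord (j - algebraMap K F a) := by
      push_cast at h2
      omega
    have h4 := hJ1 a ha0 ha1728 h3
    push_cast at h2
    omega

end Fermat.Agent.H1.ESD

end
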