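import Fermat.Agent.H1.ESD.T3Member
import Fermat.Agent.H1.ESD.T3Local
import Fermat.Agent.H17.ESD.BranchJ

/-!
# ES-D-BR3 (helper1): branch data of `t₃ = (η(z)/η(3z))¹²` on `X₀(N)`, `3 ∣ N`, characteristic 0

`branchT3 : BranchT3Statement` — for `3 ∣ N` the Laurent series `t3 ℚ̄` lies in the function field
`F_N = ℚ̄(X₀(N))`, satisfies `j t³ = (t + 27)(t + 243)³`, is transcendental, has
`4 [F_N : ℚ̄(t)] = [F_N : ℚ̄(j)]`, and is unramified outside `t ∈ {0, -27, ∞}`, with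
`e ∣ N` at the poles, `3 e ∣ N` at the zeros and `e ∣ 3` over `t = -27`.
-/

set_option autoImplicit false
set_option synthInstance.maxHeartbeats 400000

noncomputable section

namespace Fermat.Agent.H1.ESD

open AlgebraicCurve ModularCurve IntermediateField
open Fermat.Agent.H23 Fermat.Agent.H27.ESD

/-! ### `FullC ℚ̄ N ≤ F_N` -/

theorem coeffMap_qExpand_h1 {R S : Type*} [CommRing R] [CommRing S] (f : R →+* S) (n : ℕ)
    [NeZero n] (x : LaurentSeries R) :
    coeffMap f (qExpand R n x) = qExpand S n (coeffMap f x) := by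
  ext i
  rw [coeffMap_coeff]
  by_cases hi : (n : ℤ) ∣ i
  · obtain ⟨m, rfl⟩ := hi
    rw [qExpand_coeff_mul, qExpand_coeff_mul, coeffMap_coeff]
  · rw [qExpand_coeff_of_not_dvd n _ hi, qExpand_coeff_of_not_dvd n _ hi, map_zero]

theorem coeffEmb_jq_eq (L : Type*) [Field L] [Algebra ℚ L] : coeffEmb L jq = jqModC L := by
  rw [coeffEmb, ← jqModC_rat, coeffMap_jqModC]

theorem fullC_le_laurentBaseChange (L : Type*) [Field L] [Algebra ℚ L] (N : ℕ) [NeZero N] :
    modularFunctionFieldFullC L N ≤ laurentBaseChange L (modularFunctionFieldFull N) := by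
  rw [modularFunctionFieldFullC, adjoin_le_iff]
  rintro x ⟨d, hne, hdvd, rfl⟩
  haveI := hne
  have h : qExpand L d (jqModC L) = coeffEmb L (qExpand ℚ d jq) := by
    rw [coeffEmb, coeffMap_qExpand_h1, ← coeffEmb, coeffEmb_jq_eq]
  rw [h]
  exact coeffEmb_mem_laurentBaseChange L (jqd_mem_full N hdvd)

local notation "Kbar" => AlgebraicClosure ℚ

variable (N : ℕ) [NeZero N]

theorem three_ne_zero_Kbar : (3 : Kbar) ≠ 0 := by norm_num

theorem t3_mem_bar (h3 : 3 ∣ N) : t3 Kbar ∈ modularFunctionFieldBar N :=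
  fullC_le_laurentBaseChange Kbar N (t3_mem_fullC Kbar three_ne_zero_Kbar N h3)

/-- the Hauptmodul `t₃` as an element of the function field of `X₀(N)`, `3 ∣ N` -/
def t3Bar (h3 : 3 ∣ N) : ↥(modularFunctionFieldBar N) := ⟨t3 Kbar, t3_mem_bar N h3⟩

theorem coe_jBar : ((jBar N : ↥(modularFunctionFieldBar N)) : LaurentSeries Kbar) = jqModC Kbar :=
  coeffEmb_jq_eq Kbar

theorem t3Bar_rel (h3 : 3 ∣ N) :
    jBar N * t3Bar N h3 ^ 3 = (t3Bar N h3 + 27) * (t3Bar N h3 + 243) ^ 3 := by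
  apply Subtype.ext
  have h := t3_rel Kbar
  rw [← coe_jBar N] at h
  exact h

theorem jBar_mem_adjoin_t3Bar (h3 : 3 ∣ N) : jBar N ∈ Kbar⟮t3Bar N h3⟯ := by
  have ht := mem_adjoin_simple_self Kbar (t3Bar N h3)
  have h0 : t3Bar N h3 ≠ 0 := by
    intro h
    exact t3_ne_zero Kbar three_ne_zero_Kbar (congrArg Subtype.val h)
  have h1 : jBar N = (t3Bar N h3 + 27) * (t3Bar N h3 + 243) ^ 3 / t3Bar N h3 ^ 3 := by
    rw [eq_div_iff (pow_ne_zero 3 h0)]
    exact t3Bar_rel N h3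
  have hn : ∀ (n : ℕ) [n.AtLeastTwo],
      (OfNat.ofNat n : ↥(modularFunctionFieldBar N)) ∈ Kbar⟮t3Bar N h3⟯ := by
    intro n _
    rw [pc_ofNat (K := Kbar) n]
    exact (Kbar⟮t3Bar N h3⟯).algebraMap_mem _
  rw [h1]
  exact div_mem (mul_mem (add_mem ht (hn 27)) (pow_mem (add_mem ht (hn 243)) 3)) (pow_mem ht 3)

theorem t3Bar_transcendental (h3 : 3 ∣ N) : Transcendental Kbar (t3Bar N h3) := by
  intro halg
  apply Fermat.Agent.H17.ESD.jBar_transcendental N
  haveI : Algebra.IsAlgebraic Kbar Kbar⟮t3Bar N h3⟯ :=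
    isAlgebraic_adjoin_simple halg.isIntegral
  have h := Algebra.IsAlgebraic.isAlgebraic (R := Kbar)
    (⟨jBar N, jBar_mem_adjoin_t3Bar N h3⟩ : Kbar⟮t3Bar N h3⟯)
  exact h.algebraMap

theorem adjoin_jBar_le (h3 : 3 ∣ N) : Kbar⟮jBar N⟯ ≤ Kbar⟮t3Bar N h3⟯ := by
  rw [adjoin_le_iff]
  exact Set.singleton_subset_iff.mpr (jBar_mem_adjoin_t3Bar N h3)

theorem t3Bar_finrank (h3 : 3 ∣ N) :
    4 * Module.finrank Kbar⟮t3Bar N h3⟯ ↥(modularFunctionFieldBar N) =
      Module.finrank Kbar⟮jBar N⟯ ↥(modularFunctionFieldBar N) := by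
  rw [← relfinrank_mul_finrank_top (adjoin_jBar_le N h3)]
  congr 1
  rw [← relfinrank_map_map _ _ (modularFunctionFieldBar N).val, adjoin_map, adjoin_map,
    Set.image_singleton, Set.image_singleton]
  have e1 : (modularFunctionFieldBar N).val (jBar N) = jqModC Kbar := coe_jBar N
  have e2 : (modularFunctionFieldBar N).val (t3Bar N h3) = t3 Kbar := rfl
  rw [e1, e2]
  exact (relfinrank_jq_t3 Kbar three_ne_zero_Kbar).symm

theorem t3Bar_finiteDimensional (h3 : 3 ∣ N) :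
    FiniteDimensional Kbar⟮t3Bar N h3⟯ ↥(modularFunctionFieldBar N) := by
  have hfd := (degreeStatement_holds N).2.1
  have hpos : 0 < Module.finrank Kbar⟮jBar N⟯ ↥(modularFunctionFieldBar N) :=
    Module.finrank_pos
  rw [← t3Bar_finrank N h3] at hpos
  exact Module.finite_of_finrank_pos (by omega)

/-! ### the branch statement -/

/-- **ES-D-BR (t₃).**  Branch data of `t₃` on `X₀(N)`, `3 ∣ N`, in characteristic 0.
(Same shape as helper17's planned `Fermat.Agent.H17.ESD.BranchT3Statement`.) -/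
def BranchT3Statement : Prop :=
  ∀ (N : ℕ) [NeZero N], 3 ∣ N → ∃ t : ↥(modularFunctionFieldBar N),
    ((t : ↥(modularFunctionFieldBar N)) : LaurentSeries (AlgebraicClosure ℚ)) =
        t3 (AlgebraicClosure ℚ) ∧
    jBar N * t ^ 3 = (t + 27) * (t + 243) ^ 3 ∧
    Transcendental (AlgebraicClosure ℚ) t ∧
    4 * Module.finrank (AlgebraicClosure ℚ)⟮t⟯ ↥(modularFunctionFieldBar N) =
      Module.finrank (AlgebraicClosure ℚ)⟮jBar N⟯ ↥(modularFunctionFieldBar N) ∧
    ∀ v : Place (AlgebraicClosure ℚ) ↥(modularFunctionFieldBar N),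
      (1 ≤ ramIdx t v) ∧
      (1 < ramIdx t v → v.ord t < 0 ∨ 0 < v.ord t ∨ 0 < v.ord (t + 27)) ∧
      (v.ord t < 0 → ramIdx t v ∣ N) ∧
      (0 < v.ord t → 3 * ramIdx t v ∣ N) ∧
      (0 < v.ord (t + 27) → ramIdx t v ∣ 3)

theorem branchT3_place (t : ↥(modularFunctionFieldBar N))
    (hrel : jBar N * t ^ 3 = (t + 27) * (t + 243) ^ 3)
    (htr : Transcendental (AlgebraicClosure ℚ) t)
    (v : Place (AlgebraicClosure ℚ) ↥(modularFunctionFieldBar N)) :
    (1 ≤ ramIdx t v) ∧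
      (1 < ramIdx t v → v.ord t < 0 ∨ 0 < v.ord t ∨ 0 < v.ord (t + 27)) ∧
      (v.ord t < 0 → ramIdx t v ∣ N) ∧
      (0 < v.ord t → 3 * ramIdx t v ∣ N) ∧
      (0 < v.ord (t + 27) → ramIdx t v ∣ 3) := by
  have hjtr := Fermat.Agent.H17.ESD.jBar_transcendental N
  have hdeg : ∀ w : Place (AlgebraicClosure ℚ) ↥(modularFunctionFieldBar N), w.deg = 1 :=
    (Fermat.Agent.H29.fundamentalIdentity (AlgebraicClosure ℚ) _ (jBar N)
      hjtr (degreeStatement_holds N).2.1).1
  have e27 : t + 27 = t - algebraMap Kbar ↥(modularFunctionFieldBar N) (-27) := by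
    rw [map_neg, sub_neg_eq_add, ← pc_ofNat]
  have e0 : t = t - algebraMap Kbar ↥(modularFunctionFieldBar N) 0 := by
    rw [map_zero, sub_zero]
  -- poles
  have hpole : v.ord t < 0 → ramIdx t v ∣ N := by
    intro h
    rw [Fermat.Agent.H17.ESD.ramIdx_of_ord_neg v _ h]
    have h1 := t3_branch_pole v hrel htr h
    have h2 : 0 < v.ord (jBar N)⁻¹ := by rw [v.ord_inv]; omega
    have h3' := Fermat.Agent.H17.ESD.ord_jBar_inv_dvd N v h2
    rw [v.ord_inv, h1] at h3'
    exact Fermat.Agent.H17.ESD.toNat_dvd_of_dvd (by omega) h3'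
  -- zeros
  have hzero : 0 < v.ord t → 3 * ramIdx t v ∣ N := by
    intro h
    have h' : 0 < v.ord (t - algebraMap Kbar ↥(modularFunctionFieldBar N) 0) := by
      rwa [← e0]
    rw [Fermat.Agent.H17.ESD.ramIdx_of_ord_sub_pos v _ h', ← e0]
    have h1 := t3_branch_zero v hrel htr h
    have h2 : 0 < v.ord (jBar N)⁻¹ := by rw [v.ord_inv]; omega
    have h3' := Fermat.Agent.H17.ESD.ord_jBar_inv_dvd N v h2
    rw [v.ord_inv, h1, neg_neg] at h3'
    have h4 : ((3 * (v.ord t).toNat : ℕ) : ℤ) = 3 * v.ord t := by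
      push_cast
      rw [Int.toNat_of_nonneg h.le]
    rw [← h4] at h3'
    exact Int.natCast_dvd_natCast.mp h3'
  -- over `t = -27`
  have h27 : 0 < v.ord (t + 27) → ramIdx t v ∣ 3 := by
    intro h
    have h' : 0 < v.ord (t - algebraMap Kbar ↥(modularFunctionFieldBar N) (-27)) := by
      rwa [← e27]
    rw [Fermat.Agent.H17.ESD.ramIdx_of_ord_sub_pos v _ h', ← e27]
    have h1 := t3_branch_27 v hrel htr h
    have h2 := Fermat.Agent.H17.ESD.ord_jBar_dvd_three N v (by omega)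
    rw [h1] at h2
    exact Fermat.Agent.H17.ESD.toNat_dvd_of_dvd h (by exact_mod_cast h2)
  have hloc : ∀ c : Kbar, c ≠ 0 → c ≠ -27 →
      0 < v.ord (t - algebraMap Kbar ↥(modularFunctionFieldBar N) c) →
      v.ord (t - algebraMap Kbar ↥(modularFunctionFieldBar N) c) = 1 := by
    intro c hc0 hc27 h
    exact t3_branch_local v hrel htr hjtr
      (fun a ha0 ha1 hv => Fermat.Agent.H17.ESD.ord_jBar_sub_eq_one N v ha0 ha1 hv)
      (Fermat.Agent.H17.ESD.ord_jBar_dvd_three N v)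
      (Fermat.Agent.H17.ESD.ord_jBar_sub_dvd_two N v) hc0 hc27 h
  have hpt := exists_point hdeg htr v
  refine ⟨?_, ?_, hpole, hzero, h27⟩
  · rcases hpt with h | ⟨a, ha⟩
    · have h' : v.ord t < 0 := by rw [v.ord_inv] at h; omega
      rw [Fermat.Agent.H17.ESD.ramIdx_of_ord_neg v _ h']
      omega
    · rw [Fermat.Agent.H17.ESD.ramIdx_of_ord_sub_pos v _ ha]
      omega
  · intro hram
    rcases hpt with h | ⟨a, ha⟩
    · left
      rw [v.ord_inv] at h; omega
    · by_cases h0 : a = 0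
      · right; left
        subst h0
        rwa [← e0] at ha
      · by_cases h1 : a = -27
        · right; right
          subst h1
          rwa [← e27] at ha
        · exfalso
          rw [Fermat.Agent.H17.ESD.ramIdx_of_ord_sub_pos v _ ha, hloc a h0 h1 ha] at hram
          simp at hram

/-- **ES-D-BR (t₃)**, unconditional. -/
theorem branchT3 : BranchT3Statement := by
  intro N _ h3
  exact ⟨t3Bar N h3, rfl, t3Bar_rel N h3, t3Bar_transcendental N h3, t3Bar_finrank N h3,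
    branchT3_place N (t3Bar N h3) (t3Bar_rel N h3) (t3Bar_transcendental N h3)⟩

end Fermat.Agent.H1.ESD

end
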