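import Fermat.Agent.H1.ESD.L3Forms
import Fermat.Agent.H98.INT4_LevelOne

/-!
# ES-D-BR3 (helper1): the formal Hauptmodul identities at level 3

In `ℤ⟦X⟧`, with `E = eisenstein4`, `a = etaProd ^ 12`, `b = (etaProd(X³)) ^ 12`:

* (F1) `E³ a b = (a + 27 X b) (a + 243 X b)³`
* (F2) `E(X³)³ a b = (a + 27 X b) (a + 3 X b)³`

i.e. for `t₃ = X⁻¹ a / b = (η(z)/η(3z))¹²`:  `j t₃³ = (t₃ + 27)(t₃ + 243)³` and
`j(3z) t₃ = (t₃ + 27)(t₃ + 3)³`.
-/

set_option autoImplicit false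

namespace Fermat.Agent.H1.ESD

open PowerSeries UpperHalfPlane ModularForm CongruenceSubgroup
open scoped MatrixGroups ModularForm
open Fermat.Agent.H69.L3

/-! ### `ex3` is a ring homomorphism -/

theorem ex3_mul (f g : PowerSeries ℤ) : ex3 (f * g) = ex3 f * ex3 g := map_mul _ _ _
theorem ex3_sub (f g : PowerSeries ℤ) : ex3 (f - g) = ex3 f - ex3 g := map_sub _ _ _
theorem ex3_add (f g : PowerSeries ℤ) : ex3 (f + g) = ex3 f + ex3 g := map_add _ _ _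
theorem ex3_pow (f : PowerSeries ℤ) (n : ℕ) : ex3 (f ^ n) = ex3 f ^ n := map_pow _ _ _
theorem ex3_one : ex3 1 = 1 := map_one _
theorem ex3_X : ex3 X = X ^ 3 := expand_X 3 (by norm_num)
theorem ex3_ofNat (n : ℕ) [n.AtLeastTwo] : ex3 (OfNat.ofNat n) = OfNat.ofNat n :=
  map_ofNat (expand 3 (by norm_num) : PowerSeries ℤ →ₐ[ℤ] PowerSeries ℤ) n

/-! ### the discriminant -/

theorem pE4_eq : pE4 = ModularCurve.eisenstein4 := by
  ext n
  rw [pE4, ModularCurve.eisenstein4, coeff_mk, coeff_mk, ArithmeticFunction.sigma_apply]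
  push_cast
  rfl

/-- `1728 Δ = E₄³ - E₆²` as integral power series, `Δ = X ∏ (1 - Xⁿ)²⁴`. -/
theorem delta_eq : 1728 * (X * ModularCurve.dedekindEtaUnit) = pE4 ^ 3 - pE6 ^ 2 := by
  have hinj := PowerSeries.map_injective (Int.castRingHom ℂ) Int.cast_injective
  apply hinj
  have h1 := Fermat.Agent.H98.qExpansion_discriminant_eq
  rw [Fermat.Agent.H17.qExpansion_discriminant_eq, qExpansion_E4, qExpansion_E6] at h1
  rw [map_mul, map_mul, map_X, h1, map_sub, map_pow, map_pow, map_ofNat]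
  ext n
  rw [show (1728 : PowerSeries ℂ) = C (1728 : ℂ) from (map_ofNat C 1728).symm, coeff_C_mul,
    coeff_smul, smul_eq_mul, map_sub]
  ring

/-! ### notation and basic facts -/

/-- `a = ∏ (1 - Xⁿ)¹²` -/
noncomputable def pA : PowerSeries ℤ := ModularCurve.etaProd ^ 12

/-- `b = ∏ (1 - X³ⁿ)¹²` -/
noncomputable def pB : PowerSeries ℤ := ex3 pA

theorem constantCoeff_pA : constantCoeff pA = 1 := by
  rw [pA, map_pow, ModularCurve.constantCoeff_etaProd, one_pow]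

theorem constantCoeff_pB : constantCoeff pB = 1 := by
  rw [pB, ex3, constantCoeff_expand, constantCoeff_pA]

theorem dedekindEtaUnit_eq_sq : ModularCurve.dedekindEtaUnit = pA ^ 2 := by
  rw [ModularCurve.dedekindEtaUnit, pA, ← pow_mul]

theorem pP_eq : pP = 9 * pF2 ^ 2 - pE4 := by
  rw [pP, show (C (9 : ℤ) : PowerSeries ℤ) = 9 from map_ofNat C 9]

theorem pQ_eq : pQ = pE4 - pF2 ^ 2 := rfl

theorem ofNat_ne_zero_ps (n : ℕ) [n.AtLeastTwo] : (OfNat.ofNat n : PowerSeries ℤ) ≠ 0 := by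
  intro h
  have h1 := congrArg (constantCoeff (R := ℤ)) h
  rw [map_ofNat, map_zero] at h1
  exact (OfNat.ofNat_ne_zero n) h1

theorem coeff_ofNat_mul (n : ℕ) [n.AtLeastTwo] (i : ℕ) (f : PowerSeries ℤ) :
    coeff i (OfNat.ofNat n * f) = OfNat.ofNat n * coeff i f := by
  rw [show (OfNat.ofNat n : PowerSeries ℤ) = C (OfNat.ofNat n : ℤ) from (map_ofNat C n).symm,
    coeff_C_mul]

theorem constantCoeff_pF2 : constantCoeff pF2 = 1 := by
  rw [← coeff_zero_eq_constantCoeff_apply, coeff_eq_of_cl cl_pF2 (by norm_num)]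
  rfl

theorem pF2_ne_zero : pF2 ≠ 0 := by
  intro h
  have := constantCoeff_pF2
  rw [h, map_zero] at this
  exact zero_ne_one this

theorem constantCoeff_pQ : constantCoeff pQ = 0 := by
  rw [← coeff_zero_eq_constantCoeff_apply, ← getD_cl (n := 6) (by norm_num)]
  simp only [pQ, cl_sub, cl_pow, cl_pE4, cl_pF2]
  decide

theorem coeff_one_pQ : coeff 1 pQ = 216 := by
  rw [← getD_cl (n := 6) (by norm_num)]
  simp only [pQ, cl_sub, cl_pow, cl_pE4, cl_pF2]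
  decide

theorem constantCoeff_pP : constantCoeff pP = 8 := by
  rw [← coeff_zero_eq_constantCoeff_apply, ← getD_cl (n := 6) (by norm_num)]
  simp only [pP, cl_sub, cl_mul, cl_C, cl_pow, cl_pE4, cl_pF2]
  decide

theorem pQ_ne_zero : pQ ≠ 0 := by
  intro h
  have := coeff_one_pQ
  rw [h, map_zero] at this
  norm_num at this

open Fermat.Agent.H1.S16L2 (EisThreeStatement)

/-- `P³ Q = 110592 · X a² F²` -/
theorem idA_eta (hE : EisThreeStatement) :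
    pP ^ 3 * pQ = 110592 * (X * pA ^ 2 * pF2 ^ 2) := by
  rw [idA hE, ← delta_eq, dedekindEtaUnit_eq_sq,
    show (C (64 : ℤ) : PowerSeries ℤ) = 64 from map_ofNat C 64]
  ring

/-- `P Q³ = 80621568 · X³ b² F²` -/
theorem idA'_eta (hE : EisThreeStatement) :
    pP * pQ ^ 3 = 80621568 * (X ^ 3 * pB ^ 2 * pF2 ^ 2) := by
  have h := congrArg ex3 delta_eq
  rw [ex3_mul, ex3_mul, ex3_ofNat, ex3_X, ex3_sub, ex3_pow, ex3_pow, dedekindEtaUnit_eq_sq,
    ex3_pow] at h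
  rw [idA' hE, ← h, show (C (46656 : ℤ) : PowerSeries ℤ) = 46656 from map_ofNat C 46656, pB]
  ring

/-- (K) `a Q = 27 X b P`, i.e. `t₃ = 27 P / Q`. -/
theorem keyK (hE : EisThreeStatement) : pA * pQ = 27 * (X * pB * pP) := by
  have hz : (110592 * (X * pF2 ^ 2)) *
      ((pA * pQ - 27 * (X * pB * pP)) * (pA * pQ + 27 * (X * pB * pP))) = 0 := by
    linear_combination (-(pQ ^ 2)) * idA_eta hE + pP ^ 2 * idA'_eta hE
  have hne : (110592 * (X * pF2 ^ 2) : PowerSeries ℤ) ≠ 0 :=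
    mul_ne_zero (ofNat_ne_zero_ps 110592) (mul_ne_zero X_ne_zero (pow_ne_zero 2 pF2_ne_zero))
  rcases mul_eq_zero.mp ((mul_eq_zero.mp hz).resolve_left hne) with h | h
  · exact sub_eq_zero.mp h
  · exfalso
    have h1 := congrArg (coeff 1) h
    rw [map_add, coeff_one_mul, constantCoeff_pQ, coeff_one_pQ, constantCoeff_pA,
      coeff_ofNat_mul, mul_assoc, show (1 : ℕ) = 0 + 1 from rfl, coeff_succ_X_mul,
      coeff_zero_eq_constantCoeff_apply, map_mul, constantCoeff_pB, constantCoeff_pP,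
      map_zero] at h1
    norm_num at h1

/-- **(F1)** `E₄³ a b = (a + 27 X b)(a + 243 X b)³`. -/
theorem formalF1 (hE : EisThreeStatement) :
    pE4 ^ 3 * pA * pB = (pA + 27 * (X * pB)) * (pA + 243 * (X * pB)) ^ 3 := by
  have hK := keyK hE
  have h2 := idA'_eta hE
  rw [pP_eq, pQ_eq] at hK h2
  have h : (pE4 - pF2 ^ 2) ^ 4 * (pE4 ^ 3 * pA * pB) =
      (pE4 - pF2 ^ 2) ^ 4 * ((pA + 27 * (X * pB)) * (pA + 243 * (X * pB)) ^ 3) := by
    linear_combination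
      ((pE4 - pF2 ^ 2) ^ 3 * pE4 ^ 3 * pB
        - ((pA * (pE4 - pF2 ^ 2) - 27 * (X * pB * (9 * pF2 ^ 2 - pE4))) + 216 * X * pB * pE4) ^ 3
        - 216 * X * pB * pF2 ^ 2 *
          ((pA * (pE4 - pF2 ^ 2) - 27 * (X * pB * (9 * pF2 ^ 2 - pE4))) ^ 2
            + 3 * (pA * (pE4 - pF2 ^ 2) - 27 * (X * pB * (9 * pF2 ^ 2 - pE4))) *
                (216 * X * pB * pE4)
            + 3 * (216 * X * pB * pE4) ^ 2)) * hK
      + (27 * X * pE4 ^ 3 * pB ^ 2) * h2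
  have hQ : (pE4 - pF2 ^ 2) ^ 4 ≠ 0 := pow_ne_zero 4 (pQ_eq ▸ pQ_ne_zero)
  exact mul_left_cancel₀ hQ h

/-- `E₄ = 10 F² - 9 E₄(X³)` -/
theorem pE4_eq_F2_E43 (hE : EisThreeStatement) : pE4 = 10 * pF2 ^ 2 - 9 * ex3 pE4 := by
  have h := idC hE
  rw [show (C (9 : ℤ) : PowerSeries ℤ) = 9 from map_ofNat C 9,
    show (C (10 : ℤ) : PowerSeries ℤ) = 10 from map_ofNat C 10] at h
  linear_combination h

/-- **(F2)** `E₄(X³)³ a b = (a + 27 X b)(a + 3 X b)³`. -/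
theorem formalF2 (hE : EisThreeStatement) :
    ex3 pE4 ^ 3 * pA * pB = (pA + 27 * (X * pB)) * (pA + 3 * (X * pB)) ^ 3 := by
  have hK := keyK hE
  have h2 := idA'_eta hE
  have hP : pP = 9 * ex3 pE4 - pF2 ^ 2 := by
    rw [pP_eq]; linear_combination -(pE4_eq_F2_E43 hE)
  have hQ : pQ = 9 * (pF2 ^ 2 - ex3 pE4) := by
    rw [pQ_eq]; linear_combination pE4_eq_F2_E43 hE
  have hQ0 : (9 * (pF2 ^ 2 - ex3 pE4)) ^ 4 ≠ 0 := pow_ne_zero 4 (hQ ▸ pQ_ne_zero)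
  rw [hP, hQ] at hK h2
  generalize ex3 pE4 = E3 at *
  have h : (9 * (pF2 ^ 2 - E3)) ^ 4 * (E3 ^ 3 * pA * pB) =
      (9 * (pF2 ^ 2 - E3)) ^ 4 * ((pA + 27 * (X * pB)) * (pA + 3 * (X * pB)) ^ 3) := by
    linear_combination
      ((9 * (pF2 ^ 2 - E3)) ^ 3 * E3 ^ 3 * pB
        - ((pA * (9 * (pF2 ^ 2 - E3)) - 27 * (X * pB * (9 * E3 - pF2 ^ 2))) + 216 * X * pB * E3) ^ 3
        - 216 * X * pB * pF2 ^ 2 *
          ((pA * (9 * (pF2 ^ 2 - E3)) - 27 * (X * pB * (9 * E3 - pF2 ^ 2))) ^ 2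
            + 3 * (pA * (9 * (pF2 ^ 2 - E3)) - 27 * (X * pB * (9 * E3 - pF2 ^ 2))) *
                (216 * X * pB * E3)
            + 3 * (216 * X * pB * E3) ^ 2)) * hK
      + (27 * X * E3 ^ 3 * pB ^ 2) * h2
  exact mul_left_cancel₀ hQ0 h

end Fermat.Agent.H1.ESD
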