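import Fermat.Agent.H1.ESD.T3Formal
import Fermat.Prelude.Def_ModularCurve_JqCoeff
import Fermat.Prelude.Def_ModularCurve_LaurentCoeff

/-!
# ES-D-BR3 (helper1): the Hauptmodul `t₃ = (η(z)/η(3z))¹²` as a Laurent series over any ring

For every commutative ring `k`, with `t = t3 k = q⁻¹ ∏ (1-qⁿ)¹² / ∏ (1-q³ⁿ)¹² ∈ k((q))`:

* `t3_rel  : jqModC k * t ^ 3 = (t + 27) * (t + 243) ^ 3`
* `t3_rel3 : qExpand k 3 (jqModC k) * t = (t + 27) * (t + 3) ^ 3`
* `coeffMap_t3 : coeffMap f (t3 k) = t3 k'`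
* `t3_eq_single_mul : t3 k = q⁻¹ * (power series with constant coefficient 1)`
-/

set_option autoImplicit false

namespace Fermat.Agent.H1.ESD

open HahnSeries ModularCurve
open Fermat.Agent.H69.L3

/-! ### pure algebra -/

theorem alg_rel {R : Type*} [CommRing R] (q qi A B Bi Di E : R) (hq : q * qi = 1)
    (hB : B * Bi = 1) (hD : Di * A ^ 2 = 1)
    (hF : E ^ 3 * A * B = (A + 27 * (q * B)) * (A + 243 * (q * B)) ^ 3) :
    (qi * (E ^ 3 * Di)) * (qi * A * Bi) ^ 3 = ((qi * A * Bi) + 27) * ((qi * A * Bi) + 243) ^ 3 := by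
  have hwt : (q * B) * (qi * A * Bi) = A := by
    linear_combination (A * B * Bi) * hq + A * hB
  have hu : IsUnit ((q * B) ^ 4) :=
    (IsUnit.of_mul_eq_one (qi * Bi) (by linear_combination (B * Bi) * hq + hB)).pow 4
  refine hu.mul_left_cancel ?_
  calc (q * B) ^ 4 * ((qi * (E ^ 3 * Di)) * (qi * A * Bi) ^ 3)
      = (q * B) * (qi * (E ^ 3 * Di)) * ((q * B) * (qi * A * Bi)) ^ 3 := by ring
    _ = (q * B) * (qi * (E ^ 3 * Di)) * A ^ 3 := by rw [hwt]
    _ = E ^ 3 * A * B := by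
        linear_combination (B * A ^ 3 * E ^ 3 * Di) * hq + (B * A * E ^ 3) * hD
    _ = (A + 27 * (q * B)) * (A + 243 * (q * B)) ^ 3 := hF
    _ = ((q * B) * (qi * A * Bi) + 27 * (q * B)) *
          ((q * B) * (qi * A * Bi) + 243 * (q * B)) ^ 3 := by rw [hwt]
    _ = (q * B) ^ 4 * (((qi * A * Bi) + 27) * ((qi * A * Bi) + 243) ^ 3) := by ring

theorem alg_rel3 {R : Type*} [CommRing R] (q qi A B Bi D3i E3 : R) (hq : q * qi = 1)
    (hB : B * Bi = 1) (hD : D3i * B ^ 2 = 1)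
    (hF : E3 ^ 3 * A * B = (A + 27 * (q * B)) * (A + 3 * (q * B)) ^ 3) :
    (qi ^ 3 * (E3 ^ 3 * D3i)) * (qi * A * Bi) = ((qi * A * Bi) + 27) * ((qi * A * Bi) + 3) ^ 3 := by
  have hwt : (q * B) * (qi * A * Bi) = A := by
    linear_combination (A * B * Bi) * hq + A * hB
  have hu : IsUnit ((q * B) ^ 4) :=
    (IsUnit.of_mul_eq_one (qi * Bi) (by linear_combination (B * Bi) * hq + hB)).pow 4
  refine hu.mul_left_cancel ?_
  calc (q * B) ^ 4 * ((qi ^ 3 * (E3 ^ 3 * D3i)) * (qi * A * Bi))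
      = (q * B) ^ 3 * (qi ^ 3 * (E3 ^ 3 * D3i)) * ((q * B) * (qi * A * Bi)) := by ring
    _ = (q * B) ^ 3 * (qi ^ 3 * (E3 ^ 3 * D3i)) * A := by rw [hwt]
    _ = E3 ^ 3 * A * B := by
        linear_combination (B ^ 3 * E3 ^ 3 * D3i * A * ((q * qi) ^ 2 + q * qi + 1)) * hq
          + (B * A * E3 ^ 3) * hD
    _ = (A + 27 * (q * B)) * (A + 3 * (q * B)) ^ 3 := hF
    _ = ((q * B) * (qi * A * Bi) + 27 * (q * B)) *
          ((q * B) * (qi * A * Bi) + 3 * (q * B)) ^ 3 := by rw [hwt]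
    _ = (q * B) ^ 4 * (((qi * A * Bi) + 27) * ((qi * A * Bi) + 3) ^ 3) := by ring

/-! ### from `ℤ⟦X⟧` to `k((q))` -/

section Laurent

variable (k : Type*) [CommRing k]

/-- the ring homomorphism `ℤ⟦X⟧ → k((q))` -/
noncomputable def phiL : PowerSeries ℤ →+* LaurentSeries k :=
  (HahnSeries.ofPowerSeries ℤ k).comp (PowerSeries.map (Int.castRingHom k))

theorem phiL_apply (f : PowerSeries ℤ) :
    phiL k f = HahnSeries.ofPowerSeries ℤ k (f.map (Int.castRingHom k)) := rfl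

theorem phiL_X : phiL k PowerSeries.X = HahnSeries.single (1 : ℤ) (1 : k) := by
  rw [phiL_apply, PowerSeries.map_X, HahnSeries.ofPowerSeries_X]

/-- `q ↦ qⁿ` on power series, seen inside Laurent series. -/
theorem qExpand_ofPS {R : Type*} [CommRing R] (n : ℕ) [NeZero n] (f : PowerSeries R) :
    qExpand R n (HahnSeries.ofPowerSeries ℤ R f) =
      HahnSeries.ofPowerSeries ℤ R (PowerSeries.expand n (NeZero.ne n) f) := by
  ext i
  by_cases hi : (n : ℤ) ∣ i
  · obtain ⟨m, rfl⟩ := hi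
    rw [qExpand_coeff_mul]
    rcases le_or_gt 0 m with hm | hm
    · lift m to ℕ using hm
      rw [HahnSeries.ofPowerSeries_apply_coeff,
        show ((n : ℤ) * (m : ℤ)) = ((n * m : ℕ) : ℤ) by push_cast; rfl,
        HahnSeries.ofPowerSeries_apply_coeff, PowerSeries.coeff_expand_mul]
    · rw [ofPowerSeries_coeff_of_neg _ hm, ofPowerSeries_coeff_of_neg]
      have hn : (0 : ℤ) < n := by exact_mod_cast Nat.pos_of_ne_zero (NeZero.ne n)
      exact mul_neg_of_pos_of_neg hn hm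
  · rw [qExpand_coeff_of_not_dvd n _ hi]
    rcases le_or_gt 0 i with hi0 | hi0
    · lift i to ℕ using hi0
      rw [HahnSeries.ofPowerSeries_apply_coeff, PowerSeries.coeff_expand_of_not_dvd]
      intro h
      exact hi (by exact_mod_cast h)
    · rw [ofPowerSeries_coeff_of_neg _ hi0]

theorem qExpand_phiL (f : PowerSeries ℤ) : qExpand k 3 (phiL k f) = phiL k (ex3 f) := by
  rw [phiL_apply, phiL_apply, qExpand_ofPS, ex3, PowerSeries.map_expand]

/-- the formal inverse of `a = ∏ (1 - Xⁿ)¹²` -/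
noncomputable def pAinv : PowerSeries ℤ := (etaProd ^ 12).invOfUnit 1

theorem pA_mul_pAinv : pA * pAinv = 1 :=
  PowerSeries.mul_invOfUnit _ _ (by
    show PowerSeries.constantCoeff pA = ((1 : ℤˣ) : ℤ)
    rw [constantCoeff_pA]; rfl)

theorem constantCoeff_pAinv : PowerSeries.constantCoeff pAinv = 1 := by
  have h := congrArg (PowerSeries.constantCoeff (R := ℤ)) pA_mul_pAinv
  rwa [map_mul, constantCoeff_pA, one_mul, map_one] at h

/-- the Hauptmodul `t₃ = (η(z)/η(3z))¹² = q⁻¹ ∏ (1-qⁿ)¹² / ∏ (1-q³ⁿ)¹²` of `Γ₀(3)`, as a formal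
Laurent series over an arbitrary commutative ring `k`.  (Same body as helper17's planned
`Fermat.Agent.H17.ESD.t3S`.) -/
noncomputable def t3 : LaurentSeries k :=
  HahnSeries.single (-1 : ℤ) (1 : k) *
    HahnSeries.ofPowerSeries ℤ k ((etaProd ^ 12).map (Int.castRingHom k)) *
    qExpand k 3 (HahnSeries.ofPowerSeries ℤ k
      (((etaProd ^ 12).invOfUnit 1).map (Int.castRingHom k)))

theorem t3_eq : t3 k = HahnSeries.single (-1 : ℤ) (1 : k) * phiL k pA * phiL k (ex3 pAinv) := by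
  rw [← qExpand_phiL]; rfl

theorem single_mul_single_neg :
    (HahnSeries.single (1 : ℤ) (1 : k)) * HahnSeries.single (-1 : ℤ) (1 : k) = 1 := by
  rw [HahnSeries.single_mul_single]
  simp

theorem phiL_pB_mul : phiL k pB * phiL k (ex3 pAinv) = 1 := by
  rw [← map_mul, pB, ← ex3_mul, pA_mul_pAinv, ex3_one, map_one]

theorem jqModC_eq : jqModC k = HahnSeries.single (-1 : ℤ) (1 : k) *
    (phiL k pE4 ^ 3 * phiL k dedekindEtaUnitInv) := by
  rw [jqModC, jNum, ← pE4_eq, ← map_pow, ← map_mul]; rfl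

/-- **the level-3 modular equation for `j`**: `j t₃³ = (t₃ + 27)(t₃ + 243)³`, over any ring. -/
theorem t3_rel : jqModC k * t3 k ^ 3 = (t3 k + 27) * (t3 k + 243) ^ 3 := by
  rw [t3_eq, jqModC_eq]
  refine alg_rel (HahnSeries.single (1 : ℤ) (1 : k)) _ _ (phiL k pB) _ _ _
    (single_mul_single_neg k) (phiL_pB_mul k) ?_ ?_
  · rw [← map_pow, ← map_mul, ← dedekindEtaUnit_eq_sq, mul_comm, dedekindEtaUnit_mul_inv,
      map_one]
  · have h := congrArg (phiL k) (formalF1 Fermat.Agent.H41.eisThreeStatement)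
    simpa only [map_mul, map_add, map_pow, phiL_X, map_ofNat] using h

theorem qExpand_jqModC_eq : qExpand k 3 (jqModC k) = HahnSeries.single (-1 : ℤ) (1 : k) ^ 3 *
    (phiL k (ex3 pE4) ^ 3 * phiL k (ex3 dedekindEtaUnitInv)) := by
  rw [jqModC_eq, map_mul, map_mul, map_pow, qExpand_phiL, qExpand_phiL, qExpand_single,
    HahnSeries.single_pow]
  simp

/-- **the level-3 modular equation for `j(3z)`**: `j(q³) t₃ = (t₃ + 27)(t₃ + 3)³`, over any
ring. -/
theorem t3_rel3 : qExpand k 3 (jqModC k) * t3 k = (t3 k + 27) * (t3 k + 3) ^ 3 := by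
  rw [t3_eq, qExpand_jqModC_eq]
  refine alg_rel3 (HahnSeries.single (1 : ℤ) (1 : k)) _ _ (phiL k pB) _ _ _
    (single_mul_single_neg k) (phiL_pB_mul k) ?_ ?_
  · rw [← map_pow, ← map_mul, pB, ← ex3_pow, ← ex3_mul, ← dedekindEtaUnit_eq_sq, mul_comm,
      dedekindEtaUnit_mul_inv, ex3_one, map_one]
  · have h := congrArg (phiL k) (formalF2 Fermat.Agent.H41.eisThreeStatement)
    simpa only [map_mul, map_add, map_pow, phiL_X, map_ofNat] using h

theorem t3_rel3' : jqNModC k 3 * t3 k = (t3 k + 27) * (t3 k + 3) ^ 3 := t3_rel3 k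

/-! ### integrality and base change -/

/-- `t₃ = q⁻¹ · u` with `u ∈ ℤ⟦q⟧`, `u(0) = 1`. -/
noncomputable def t3Num : PowerSeries ℤ := pA * ex3 pAinv

theorem constantCoeff_t3Num : PowerSeries.constantCoeff t3Num = 1 := by
  rw [t3Num, map_mul, constantCoeff_pA, ex3, PowerSeries.constantCoeff_expand,
    constantCoeff_pAinv, one_mul]

theorem t3_eq_single_mul : t3 k = HahnSeries.single (-1 : ℤ) (1 : k) *
    HahnSeries.ofPowerSeries ℤ k (t3Num.map (Int.castRingHom k)) := by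
  rw [t3_eq, t3Num, mul_assoc, ← map_mul]; rfl

variable {k}

theorem coeffMap_ofPS {k' : Type*} [CommRing k'] (f : k →+* k') (u : PowerSeries k) :
    coeffMap f (HahnSeries.ofPowerSeries ℤ k u) = HahnSeries.ofPowerSeries ℤ k' (u.map f) := by
  ext i
  rw [coeffMap_coeff]
  rcases le_or_gt 0 i with hi | hi
  · lift i to ℕ using hi
    rw [HahnSeries.ofPowerSeries_apply_coeff, HahnSeries.ofPowerSeries_apply_coeff,
      PowerSeries.coeff_map]
  · rw [ofPowerSeries_coeff_of_neg _ hi, ofPowerSeries_coeff_of_neg _ hi, map_zero]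

theorem coeffMap_phiL {k' : Type*} [CommRing k'] (f : k →+* k') (u : PowerSeries ℤ) :
    coeffMap f (phiL k u) = phiL k' u := by
  rw [phiL_apply, phiL_apply, coeffMap_ofPS]
  congr 1
  rw [show PowerSeries.map f (PowerSeries.map (Int.castRingHom k) u)
        = PowerSeries.map (f.comp (Int.castRingHom k)) u from
      (congrFun (congrArg DFunLike.coe (PowerSeries.map_comp (Int.castRingHom k) f)) u).symm,
    RingHom.ext_int (f.comp (Int.castRingHom k)) (Int.castRingHom k')]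

/-- `t₃` is compatible with every change of coefficient ring. -/
theorem coeffMap_t3 {k' : Type*} [CommRing k'] (f : k →+* k') :
    coeffMap f (t3 k) = t3 k' := by
  rw [t3_eq, t3_eq, map_mul, map_mul, coeffMap_phiL, coeffMap_phiL, coeffMap_single, map_one]

theorem map_t3 {k' : Type*} [CommRing k'] (f : k →+* k') :
    (t3 k).map f = t3 k' := coeffMap_t3 f

end Laurent

end Fermat.Agent.H1.ESD
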