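import Fermat.Agent.H1.ESD.T3Laurent
import Fermat.Agent.H1.ESD.DegreeCrit
import Fermat.Agent.H27.Igusa.Assembly2
import Fermat.Agent.H67.IgusaTransfer
import Fermat.Agent.H17.HeckeDataComplex
import Fermat.Agent.H42.Kronecker

/-!
# ES-D-BR3 (helper1): `t₃` generates the function field of `X₀(3)`

For every algebraically closed field `k` with `3 ≠ 0`:

* `fullC_three_eq_adjoin_t3 : modularFunctionFieldFullC k 3 = k(t₃)`
* `t3_mem_fullC : t3 k ∈ modularFunctionFieldFullC k N` for `3 ∣ N`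
* `finrank_adjoin_jq_t3 : [k(j)(t₃) : k(j)] = 4`

Proof: `k(j) ⊆ k(j, j(q³)) ⊆ k(t₃)` by the two modular equations, `[k(t₃) : k(j)] ≤ 4` by the
first one, and `[k(j, j(q³)) : k(j)] ≥ ψ(3) = 4` by the P-IGUSA degree inequality.
-/

set_option autoImplicit false

noncomputable section

namespace Fermat.Agent.H1.ESD

open HahnSeries ModularCurve IntermediateField Polynomial

section field

variable (k : Type*) [Field k]

theorem t3_ne_zero (h3 : (3 : k) ≠ 0) : t3 k ≠ 0 := by
  intro h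
  have h1 := t3_rel3 k
  rw [h, mul_zero, zero_add, zero_add] at h1
  have h2 : (3 : LaurentSeries k) ^ 6 = 0 := by
    rw [show (3 : LaurentSeries k) ^ 6 = 27 * 3 ^ 3 by norm_num]
    exact h1.symm
  have h4 : (3 : LaurentSeries k) = 0 := pow_eq_zero_iff (by norm_num) |>.mp h2
  rw [show (3 : LaurentSeries k) = HahnSeries.C (3 : k) from (map_ofNat HahnSeries.C 3).symm]
    at h4
  exact h3 (HahnSeries.C_injective (h4.trans (map_zero _).symm))

theorem ofNat_mem_adjoin (S : Set (LaurentSeries k)) (n : ℕ) [n.AtLeastTwo] :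
    (OfNat.ofNat n : LaurentSeries k) ∈ adjoin k S := by
  have h : (OfNat.ofNat n : LaurentSeries k) = algebraMap k (LaurentSeries k) (OfNat.ofNat n) :=
    (map_ofNat (algebraMap k (LaurentSeries k)) n).symm
  rw [h]
  exact (adjoin k S).algebraMap_mem _

theorem jqModC_mem_adjoin_t3 (h3 : (3 : k) ≠ 0) : jqModC k ∈ adjoin k {t3 k} := by
  have ht := mem_adjoin_simple_self k (t3 k)
  have h0 := t3_ne_zero k h3
  have h1 : jqModC k = (t3 k + 27) * (t3 k + 243) ^ 3 / t3 k ^ 3 := by
    rw [eq_div_iff (pow_ne_zero 3 h0)]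
    exact t3_rel k
  rw [h1]
  exact div_mem (mul_mem (add_mem ht (ofNat_mem_adjoin k _ 27))
    (pow_mem (add_mem ht (ofNat_mem_adjoin k _ 243)) 3)) (pow_mem ht 3)

theorem jq3_mem_adjoin_t3 (h3 : (3 : k) ≠ 0) :
    qExpand k 3 (jqModC k) ∈ adjoin k {t3 k} := by
  have ht := mem_adjoin_simple_self k (t3 k)
  have h0 := t3_ne_zero k h3
  have h1 : qExpand k 3 (jqModC k) = (t3 k + 27) * (t3 k + 3) ^ 3 / t3 k := by
    rw [eq_div_iff h0]
    exact t3_rel3 k
  rw [h1]
  exact div_mem (mul_mem (add_mem ht (ofNat_mem_adjoin k _ 27))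
    (pow_mem (add_mem ht (ofNat_mem_adjoin k _ 3)) 3)) ht

theorem fullC_three_le_adjoin_t3 (h3 : (3 : k) ≠ 0) :
    modularFunctionFieldFullC k 3 ≤ adjoin k {t3 k} := by
  rw [modularFunctionFieldFullC, adjoin_le_iff]
  rintro x ⟨d, hne, hdvd, rfl⟩
  rcases (Nat.dvd_prime Nat.prime_three).mp hdvd with rfl | rfl
  · rw [qExpand_one_apply]
    exact jqModC_mem_adjoin_t3 k h3
  · exact jq3_mem_adjoin_t3 k h3

theorem adjoin_jqModC_le_fullC (N : ℕ) [NeZero N] :
    adjoin k {jqModC k} ≤ modularFunctionFieldFullC k N := by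
  rw [adjoin_le_iff]
  exact Set.singleton_subset_iff.mpr (jqModC_mem_full k N)

/-- the level-3 modular equation as a monic quartic over `k(j)` -/
def quartic3 : Polynomial (adjoin k {jqModC k}) :=
  (X + Polynomial.C 27) * (X + Polynomial.C 243) ^ 3 - Polynomial.C ⟨jqModC k, mem_adjoin_simple_self k _⟩ * X ^ 3

theorem quartic3_natDegree_left :
    ((X + Polynomial.C 27) * (X + Polynomial.C 243) ^ 3 : Polynomial (adjoin k {jqModC k})).natDegree = 4 := by
  have h1 : ((X + Polynomial.C 27 : Polynomial (adjoin k {jqModC k}))).Monic := monic_X_add_C _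
  have h2 : ((X + Polynomial.C 243 : Polynomial (adjoin k {jqModC k})) ^ 3).Monic :=
    (monic_X_add_C _).pow 3
  rw [h1.natDegree_mul h2, natDegree_X_add_C, (monic_X_add_C _).natDegree_pow,
    natDegree_X_add_C]

theorem quartic3_monic : (quartic3 k).Monic := by
  have h1 : ((X + Polynomial.C 27) * (X + Polynomial.C 243) ^ 3 : Polynomial (adjoin k {jqModC k})).Monic :=
    (monic_X_add_C _).mul ((monic_X_add_C _).pow 3)
  refine h1.sub_of_left ?_
  rw [degree_eq_natDegree h1.ne_zero, quartic3_natDegree_left]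
  refine lt_of_le_of_lt (degree_C_mul_X_pow_le 3 _) ?_
  norm_num

theorem quartic3_natDegree : (quartic3 k).natDegree ≤ 4 := by
  unfold quartic3
  refine (natDegree_sub_le _ _).trans (max_le (quartic3_natDegree_left k).le ?_)
  exact (natDegree_C_mul_X_pow_le _ 3).trans (by norm_num)

theorem quartic3_root : Polynomial.aeval (t3 k) (quartic3 k) = 0 := by
  have h : Polynomial.aeval (t3 k) (quartic3 k) =
      (t3 k + 27) * (t3 k + 243) ^ 3 - jqModC k * t3 k ^ 3 := by
    simp only [quartic3, map_sub, map_mul, map_add, map_pow, aeval_X, aeval_C]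
    rfl
  rw [h, t3_rel, sub_self]

end field

section closed

variable (k : Type) [Field k] [IsAlgClosed k]

theorem hasHeckeData_any : Fermat.Agent.H27.HasHeckeData k :=
  Fermat.Agent.H67.hasHeckeData_of_complex Fermat.Agent.H17.hasHeckeData_complex k

theorem four_le_relrank (h3 : (3 : k) ≠ 0) :
    ((4 : ℕ) : Cardinal) ≤ relrank (adjoin k {jqModC k}) (modularFunctionFieldFullC k 3) := by
  have h := Fermat.Agent.H27.dedekindPsi_le_relrank_geom_of k (hasHeckeData_any k)
    (Fermat.Agent.H27.unitNormStatement_of_hasHeckeData k (hasHeckeData_any k)) 3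
    (by exact_mod_cast h3)
  have h4 : dedekindPsi 3 = 4 := by
    haveI : Fact (Nat.Prime 3) := ⟨Nat.prime_three⟩
    exact Fermat.Agent.H42.dedekindPsi_prime 3
  rwa [h4] at h

theorem t3_package (h3 : (3 : k) ≠ 0) :
    modularFunctionFieldFullC k 3 = adjoin k {t3 k} ∧
      Module.finrank (adjoin k {jqModC k}) (adjoin (adjoin k {jqModC k}) {t3 k}) = 4 ∧
      FiniteDimensional (adjoin k {jqModC k}) (adjoin (adjoin k {jqModC k}) {t3 k}) :=
  adjoin_eq_of_relrank_le (adjoin k {jqModC k}) (modularFunctionFieldFullC k 3) (t3 k) 4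
    (adjoin_jqModC_le_fullC k 3) (fullC_three_le_adjoin_t3 k h3) (quartic3 k) (quartic3_monic k)
    (quartic3_natDegree k) (quartic3_root k) (four_le_relrank k h3)

/-- `k(X₀(3)) = k(t₃)` -/
theorem fullC_three_eq_adjoin_t3 (h3 : (3 : k) ≠ 0) :
    modularFunctionFieldFullC k 3 = adjoin k {t3 k} := (t3_package k h3).1

/-- `[k(j)(t₃) : k(j)] = 4` -/
theorem finrank_adjoin_jq_t3 (h3 : (3 : k) ≠ 0) :
    Module.finrank (adjoin k {jqModC k}) (adjoin (adjoin k {jqModC k}) {t3 k}) = 4 :=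
  (t3_package k h3).2.1

/-- `[k(t₃) : k(j)] = 4` in `relfinrank` form -/
theorem relfinrank_jq_t3 (h3 : (3 : k) ≠ 0) :
    relfinrank (adjoin k {jqModC k}) (adjoin k {t3 k}) = 4 := by
  have h0t : adjoin k {jqModC k} ≤ adjoin k {t3 k} := by
    rw [adjoin_le_iff]
    exact Set.singleton_subset_iff.mpr (jqModC_mem_adjoin_t3 k h3)
  rw [relfinrank_eq_finrank_of_le h0t, extendScalars_adjoin h0t]
  exact finrank_adjoin_jq_t3 k h3

/-- **membership**: `t₃ ∈ k(X₀(N))` for `3 ∣ N` -/
theorem t3_mem_fullC (h3 : (3 : k) ≠ 0) (N : ℕ) [NeZero N] (hN : 3 ∣ N) :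
    t3 k ∈ modularFunctionFieldFullC k N := by
  refine full_degeneracyC_le k hN ?_
  rw [fullC_three_eq_adjoin_t3 k h3]
  exact mem_adjoin_simple_self k (t3 k)

end closed

end Fermat.Agent.H1.ESD

end
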