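import Fermat.Agent.H1.ESD.T3Member
import Fermat.Agent.H57.IgusaDescent

/-!
# ES-D-BR3 (helper1): `t₃` over an arbitrary field with `3 ≠ 0` (e.g. `ℚ`), and its order

* `t3_mem_fullC_gen : t3 k ∈ modularFunctionFieldFullC k N` for every field `k` with `3 ≠ 0`,
  `3 ∣ N` (no algebraic closedness), by descent of the degree inequality;
* `t3_rat_mem_full : t3 ℚ ∈ modularFunctionFieldFull N` for `3 ∣ N`;
* `order_t3 : (t3 k).order = -1`, `coeff_t3_neg_one`, `coeff_t3_of_lt`.
-/

set_option autoImplicit false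

noncomputable section

namespace Fermat.Agent.H1.ESD

open HahnSeries ModularCurve IntermediateField Polynomial

section order

variable (k : Type*) [CommRing k]

theorem coeff_t3_add_neg_one (m : ℤ) :
    (t3 k).coeff (m + -1) =
      (HahnSeries.ofPowerSeries ℤ k (t3Num.map (Int.castRingHom k))).coeff m := by
  rw [t3_eq_single_mul, HahnSeries.coeff_single_mul_add, one_mul]

theorem coeff_t3_neg_one : (t3 k).coeff (-1) = 1 := by
  have h := coeff_t3_add_neg_one k 0
  rw [zero_add] at h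
  rw [h, show (0 : ℤ) = ((0 : ℕ) : ℤ) from rfl, HahnSeries.ofPowerSeries_apply_coeff,
    PowerSeries.coeff_map, PowerSeries.coeff_zero_eq_constantCoeff_apply, constantCoeff_t3Num,
    map_one]

theorem coeff_t3_of_lt {m : ℤ} (hm : m < -1) : (t3 k).coeff m = 0 := by
  have h := coeff_t3_add_neg_one k (m + 1)
  rw [show m + 1 + -1 = m by ring] at h
  rw [h]
  exact ofPowerSeries_coeff_of_neg _ (by omega)

theorem t3_ne_zero_of_nontrivial [Nontrivial k] : t3 k ≠ 0 := by
  intro h
  have h1 := coeff_t3_neg_one k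
  rw [h, HahnSeries.coeff_zero] at h1
  exact zero_ne_one h1

theorem order_t3 [Nontrivial k] : (t3 k).order = -1 := by
  refine le_antisymm (HahnSeries.order_le_of_coeff_ne_zero ?_) ?_
  · rw [coeff_t3_neg_one]
    exact one_ne_zero
  · by_contra hlt
    rw [not_le] at hlt
    exact HahnSeries.coeff_order_eq_zero.not.mpr (t3_ne_zero_of_nontrivial k)
      (coeff_t3_of_lt k hlt)

end order

section anyfield

variable (k : Type) [Field k]

theorem four_le_relrank_gen (h3 : (3 : k) ≠ 0) :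
    ((4 : ℕ) : Cardinal) ≤ relrank (adjoin k {jqModC k}) (modularFunctionFieldFullC k 3) := by
  have h3' : (3 : AlgebraicClosure k) ≠ 0 := by
    intro h
    apply h3
    have h1 : algebraMap k (AlgebraicClosure k) 3 = 0 := by
      rw [map_ofNat]
      exact h
    exact (map_eq_zero _).mp h1
  exact (four_le_relrank (AlgebraicClosure k) h3').trans
    (Fermat.Agent.H57.relrank_descent_of_isAlgebraic k (AlgebraicClosure k) 3)

theorem t3_package_gen (h3 : (3 : k) ≠ 0) :
    modularFunctionFieldFullC k 3 = adjoin k {t3 k} ∧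
      Module.finrank (adjoin k {jqModC k}) (adjoin (adjoin k {jqModC k}) {t3 k}) = 4 ∧
      FiniteDimensional (adjoin k {jqModC k}) (adjoin (adjoin k {jqModC k}) {t3 k}) :=
  adjoin_eq_of_relrank_le (adjoin k {jqModC k}) (modularFunctionFieldFullC k 3) (t3 k) 4
    (adjoin_jqModC_le_fullC k 3) (fullC_three_le_adjoin_t3 k h3) (quartic3 k) (quartic3_monic k)
    (quartic3_natDegree k) (quartic3_root k) (four_le_relrank_gen k h3)

/-- `k(X₀(3)) = k(t₃)` over every field with `3 ≠ 0` -/
theorem fullC_three_eq_adjoin_t3_gen (h3 : (3 : k) ≠ 0) :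
    modularFunctionFieldFullC k 3 = adjoin k {t3 k} := (t3_package_gen k h3).1

/-- `[k(t₃) : k(j)] = 4` over every field with `3 ≠ 0` -/
theorem relfinrank_jq_t3_gen (h3 : (3 : k) ≠ 0) :
    relfinrank (adjoin k {jqModC k}) (adjoin k {t3 k}) = 4 := by
  have h0t : adjoin k {jqModC k} ≤ adjoin k {t3 k} := by
    rw [adjoin_le_iff]
    exact Set.singleton_subset_iff.mpr (jqModC_mem_adjoin_t3 k h3)
  rw [relfinrank_eq_finrank_of_le h0t, extendScalars_adjoin h0t]
  exact (t3_package_gen k h3).2.1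

/-- **membership over any field**: `t₃ ∈ k(j(q^d) : d ∣ N)` for `3 ∣ N`, `3 ≠ 0` in `k` -/
theorem t3_mem_fullC_gen (h3 : (3 : k) ≠ 0) (N : ℕ) [NeZero N] (hN : 3 ∣ N) :
    t3 k ∈ modularFunctionFieldFullC k N := by
  refine full_degeneracyC_le k hN ?_
  rw [fullC_three_eq_adjoin_t3_gen k h3]
  exact mem_adjoin_simple_self k (t3 k)

end anyfield

/-- **membership over `ℚ`**: `t₃ ∈ ℚ(j(q^d) : d ∣ N)` for `3 ∣ N` -/
theorem t3_rat_mem_full (N : ℕ) [NeZero N] (hN : 3 ∣ N) :
    t3 ℚ ∈ modularFunctionFieldFull N := by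
  rw [← modularFunctionFieldFullC_rat]
  exact t3_mem_fullC_gen ℚ (by norm_num) N hN

theorem order_t3_rat : (t3 ℚ).order = -1 := order_t3 ℚ

theorem order_t3_rat_ne_zero : (t3 ℚ).order ≠ 0 := by
  rw [order_t3_rat]
  norm_num

/-- `coeffEmb L (t₃ over ℚ) = t₃ over L` -/
theorem coeffEmb_t3 (L : Type*) [Field L] [Algebra ℚ L] : coeffEmb L (t3 ℚ) = t3 L :=
  coeffMap_t3 _

end Fermat.Agent.H1.ESD

end
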