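import Fermat.Agent.H1.ESD.T3Branch
import Fermat.Agent.H7.ESD.TameJ

/-!
# ES-D-BR3 (helper1): the tame branch datum of `x = t₃` at `ℓ = 2`, `3 ∣ N`

`tameBranchData_t3 : ¬ 2 ∣ N → 3 ∣ N → A.LiesOverPrime 2 → TameBranchData N A`
(helper7's `Fermat.Agent.H7.ESD.TameBranchData`), with `X = t3 A`, `c₁ = -27`, `c₂ = 0`.
-/

set_option autoImplicit false
set_option synthInstance.maxHeartbeats 400000
set_option maxHeartbeats 1600000
set_option linter.unusedSectionVars false
set_option linter.style.haveILetI false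

noncomputable section

namespace Fermat.Agent.H1.ESD

open AlgebraicCurve ModularCurve IntermediateField
open Fermat.Agent.H27.ESD Fermat.Agent.H27 Fermat.Agent.H7.ESD

/-! ### generic consequences of the relation `j t³ = (t + 27)(t + 243)³` -/

section generic

variable {K F : Type*} [Field K] [Field F] [Algebra K F] {j t : F}

theorem hg_mem_adjoin (hrel : j * t ^ 3 = (t + 27) * (t + 243) ^ 3) (ht0 : t ≠ 0) :
    j ∈ K⟮t⟯ := by
  have ht := mem_adjoin_simple_self K t
  have h1 : j = (t + 27) * (t + 243) ^ 3 / t ^ 3 := by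
    rw [eq_div_iff (pow_ne_zero 3 ht0)]
    exact hrel
  have hn : ∀ (n : ℕ) [n.AtLeastTwo], (OfNat.ofNat n : F) ∈ K⟮t⟯ := by
    intro n _
    rw [pc_ofNat (K := K) n]
    exact (K⟮t⟯).algebraMap_mem _
  rw [h1]
  exact div_mem (mul_mem (add_mem ht (hn 27)) (pow_mem (add_mem ht (hn 243)) 3)) (pow_mem ht 3)

theorem hg_adjoin_le (hrel : j * t ^ 3 = (t + 27) * (t + 243) ^ 3) (ht0 : t ≠ 0) :
    K⟮j⟯ ≤ K⟮t⟯ := by
  rw [adjoin_le_iff]
  exact Set.singleton_subset_iff.mpr (hg_mem_adjoin hrel ht0)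

theorem hg_transcendental (hrel : j * t ^ 3 = (t + 27) * (t + 243) ^ 3) (ht0 : t ≠ 0)
    (hj : Transcendental K j) : Transcendental K t := by
  intro halg
  apply hj
  haveI : Algebra.IsAlgebraic K K⟮t⟯ := isAlgebraic_adjoin_simple halg.isIntegral
  have h := Algebra.IsAlgebraic.isAlgebraic (R := K)
    (⟨j, hg_mem_adjoin hrel ht0⟩ : K⟮t⟯)
  exact h.algebraMap

theorem hg_finite (hle : K⟮j⟯ ≤ K⟮t⟯) [FiniteDimensional K⟮j⟯ F] :
    FiniteDimensional K⟮t⟯ F := by
  letI := (IntermediateField.inclusion hle).toAlgebra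
  haveI : IsScalarTower K⟮j⟯ K⟮t⟯ F := .of_algebraMap_eq' rfl
  exact Module.Finite.of_restrictScalars_finite K⟮j⟯ K⟮t⟯ F

theorem hg_separable (hle : K⟮j⟯ ≤ K⟮t⟯) [Algebra.IsSeparable K⟮j⟯ F] :
    Algebra.IsSeparable K⟮t⟯ F := by
  letI := (IntermediateField.inclusion hle).toAlgebra
  haveI : IsScalarTower K⟮j⟯ K⟮t⟯ F := .of_algebraMap_eq' rfl
  exact Algebra.isSeparable_tower_top_of_isSeparable K⟮j⟯ K⟮t⟯ F

end generic

/-! ### the function field in characteristic `ℓ ≠ 3` -/

section kside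

variable (k : Type) [Field k] [IsAlgClosed k] (N : ℕ) [NeZero N]

theorem t3k_rel (h3 : (3 : k) ≠ 0) (hN : 3 ∣ N) :
    (⟨jqModC k, jqModC_mem_full k N⟩ : ↥(modularFunctionFieldFullC k N)) *
        (⟨t3 k, t3_mem_fullC k h3 N hN⟩ : ↥(modularFunctionFieldFullC k N)) ^ 3 =
      ((⟨t3 k, t3_mem_fullC k h3 N hN⟩ : ↥(modularFunctionFieldFullC k N)) + 27) *
        ((⟨t3 k, t3_mem_fullC k h3 N hN⟩ : ↥(modularFunctionFieldFullC k N)) + 243) ^ 3 :=
  Subtype.ext (t3_rel k)

theorem t3k_ne_zero (h3 : (3 : k) ≠ 0) (hN : 3 ∣ N) :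
    (⟨t3 k, t3_mem_fullC k h3 N hN⟩ : ↥(modularFunctionFieldFullC k N)) ≠ 0 := by
  intro h
  exact t3_ne_zero k h3 (congrArg Subtype.val h)

theorem t3k_finrank (h3 : (3 : k) ≠ 0) (hN : 3 ∣ N) :
    4 * Module.finrank
        (adjoin k {(⟨t3 k, t3_mem_fullC k h3 N hN⟩ : ↥(modularFunctionFieldFullC k N))})
        ↥(modularFunctionFieldFullC k N) =
      Module.finrank
        (adjoin k {(⟨jqModC k, jqModC_mem_full k N⟩ : ↥(modularFunctionFieldFullC k N))})
        ↥(modularFunctionFieldFullC k N) := by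
  rw [← relfinrank_mul_finrank_top (hg_adjoin_le (t3k_rel k N h3 hN) (t3k_ne_zero k N h3 hN))]
  congr 1
  rw [← relfinrank_map_map _ _ (modularFunctionFieldFullC k N).val, adjoin_map, adjoin_map,
    Set.image_singleton, Set.image_singleton]
  exact (relfinrank_jq_t3 k h3).symm

end kside

/-! ### the datum -/

section datum

variable (N : ℕ) [NeZero N] (A : ValuationSubring (AlgebraicClosure ℚ))

local notation "Kbar" => AlgebraicClosure ℚ

/-- **The tame branch datum of `t₃`** at `ℓ = 2`, `3 ∣ N`. -/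
theorem tameBranchData_t3 (h2N : ¬ 2 ∣ N) (h3N : 3 ∣ N) (hA : A.LiesOverPrime 2) :
    TameBranchData N A := by
  haveI : Fact (Nat.Prime 2) := ⟨Nat.prime_two⟩
  haveI : IsAlgClosed (IsLocalRing.ResidueField A) :=
    Fermat.Agent.H89.isAlgClosed_residueField A
  haveI : CharP (IsLocalRing.ResidueField A) 2 :=
    Fermat.Agent.H89.charP_residueField_of_liesOverPrime A 2 hA
  have hM : HasHeckeData (IsLocalRing.ResidueField A) := hasHeckeData_any _
  have h3k : (3 : IsLocalRing.ResidueField A) ≠ 0 := by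
    intro h
    have h1 : ((3 : ℕ) : IsLocalRing.ResidueField A) = 0 := by exact_mod_cast h
    have h2 := (CharP.cast_eq_zero_iff (IsLocalRing.ResidueField A) 2 3).mp h1
    omega
  -- the two sides
  have e1 : coeffMap A.subtype (t3 A) = t3 Kbar := coeffMap_t3 _
  have hX : coeffMap A.subtype (t3 A) ∈ modularFunctionFieldBar N := by
    rw [e1]
    exact t3_mem_bar N h3N
  have ex : (⟨_, hX⟩ : ↥(modularFunctionFieldBar N)) = t3Bar N h3N := Subtype.ext e1
  have e2 : coeffMap (IsLocalRing.residue A) (t3 A) = t3 (IsLocalRing.ResidueField A) :=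
    coeffMap_t3 _
  have hXk : coeffMap (IsLocalRing.residue A) (t3 A) ∈
      modularFunctionFieldFullC (IsLocalRing.ResidueField A) N := by
    rw [e2]
    exact t3_mem_fullC _ h3k N h3N
  have exk : (⟨_, hXk⟩ : ↥(modularFunctionFieldFullC (IsLocalRing.ResidueField A) N)) =
      ⟨t3 (IsLocalRing.ResidueField A), t3_mem_fullC _ h3k N h3N⟩ := Subtype.ext e2
  obtain ⟨htr, hfin, hsep⟩ := tg_ffModL_explicit (IsLocalRing.ResidueField A) N 2 h2N hM
  have hdeg := tg_dedekindPsi_le_finrank (IsLocalRing.ResidueField A) N 2 h2N hM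
  have hrelk := t3k_rel (IsLocalRing.ResidueField A) N h3k h3N
  have hne0k := t3k_ne_zero (IsLocalRing.ResidueField A) N h3k h3N
  have hlek := hg_adjoin_le (K := IsLocalRing.ResidueField A) hrelk hne0k
  -- the residues of the branch values
  have h27 : IsUnit (((-27 : ℤ) : ℤ) : A) := by
    refine Fermat.Agent.H18.rv_isUnit_intCast A Nat.prime_two hA ?_
    norm_num
  have hres : IsLocalRing.residue A (((-27 : ℤ) : ℤ) : A) ≠ IsLocalRing.residue A (0 : A) := by
    rw [map_zero]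
    intro h0
    have h3 := (IsLocalRing.residue_eq_zero_iff _).mp h0
    exact (IsLocalRing.mem_maximalIdeal _).mp h3 h27
  refine ⟨t3 A, hX, hXk, (((-27 : ℤ) : ℤ) : A), 0, hres, ?_, ?_, ?_, ?_, ?_, ?_, ?_⟩
  · rw [ex]
    exact t3Bar_transcendental N h3N
  · rw [ex]
    exact t3Bar_finiteDimensional N h3N
  · rw [exk]
    exact hg_transcendental hrelk hne0k htr
  · rw [exk]
    haveI := hfin
    exact hg_finite hlek
  · rw [exk]
    haveI := hsep
    exact hg_separable hlek
  · rw [ex, exk]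
    have h1 := t3Bar_finrank N h3N
    have h2 := t3k_finrank (IsLocalRing.ResidueField A) N h3k h3N
    have h3 := tg_finrank_jBar N
    omega
  · intro v hv
    rw [ex] at hv ⊢
    obtain ⟨-, hb, -⟩ := branchT3_place N (t3Bar N h3N) (t3Bar_rel N h3N)
      (t3Bar_transcendental N h3N) v
    have e3 : ((((-27 : ℤ) : ℤ) : A) : Kbar) = -27 := by
      push_cast
      rfl
    rcases hb hv with h | h | h
    · exact Or.inl h
    · right
      right
      simpa using h
    · right
      left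
      rw [e3, map_neg, sub_neg_eq_add, ← pc_ofNat]
      exact h

end datum

end Fermat.Agent.H1.ESD

end
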