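import Fermat.Agent.H1.ESD.T3Tame
import Fermat.Agent.H17.ESD.TameT2
import Fermat.Agent.H7.ESD.TameUncond

/-!
# ES-D-TG, final assembly (helper1 + helper17 + helper7): the genus inequality at tame pairs

`tameBranch23 : TameBranch23Statement` from `tameBranchData_t2` (helper17, `ℓ = 3`, `2 ∣ N`) and
`tameBranchData_t3` (helper1, `ℓ = 2`, `3 ∣ N`); hence
`genusFFTame : GenusFFTameStatement`, unconditional.
-/

set_option autoImplicit false

namespace Fermat.Agent.H1.ESD

open Fermat.Agent.H7.ESD Fermat.Agent.H27.ESD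

/-- **branch data at `ℓ = 2, 3`** -/
theorem tameBranch23 : TameBranch23Statement := by
  intro N _ ℓ _ hℓN h23 A hA _ _
  rcases h23 with ⟨rfl, h2⟩ | ⟨rfl, h3⟩
  · exact Fermat.Agent.H17.ESD.tameBranchData_t2 N A h2 hℓN hA
  · exact tameBranchData_t3 N A hℓN h3 hA

/-- **ES-D-TG**: the genus inequality `g(F_L) ≤ g(F_k)` at tame pairs, unconditional (the
reduction inputs `h` and the Riemann package of `F_k` are hypotheses of the statement). -/
theorem genusFFTame : GenusFFTameStatement := genusFFTame_of_branch23 tameBranch23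

end Fermat.Agent.H1.ESD
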